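import Fermat.Agent.DavenportMoebius.Smoothed
import Mathlib.NumberTheory.DirichletCharacter.Orthogonality

/-!
# The theorem of Siegel and Walfisz for the Möbius function

`∑_{n ≤ N, n ≡ a (q)} μ n = O (N / (log N) ^ A)` for `q ≤ (log N) ^ B` and every `a`: orthogonality
for the classes prime to `q`, and `μ (d m) = μ d μ m` for `m` prime to `d` for the others.
-/

set_option autoImplicit false

noncomputable section

namespace FA.DavenportMoebius

open Finset Filter Complex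
open FA.SiegelWalfisz (smoothSum)
open scoped ArithmeticFunction.Moebius Topology

/-- The smoothing undone. -/
theorem norm_sum_mul_le {f : ℕ → ℂ} (hf : ∀ n, ‖f n‖ ≤ 1) (N : ℕ) {h : ℝ} (hN : 1 ≤ N)
    (hh : 0 ≤ h) : ‖∑ n ∈ Icc 1 N, f n‖ * h ≤
      (N + h) * ‖smoothSum f (N + h)‖ + N * ‖smoothSum f (N : ℝ)‖ + h * (h + 1) := by
  have hN0 : (0 : ℝ) < N := Nat.cast_pos.2 hN
  obtain ⟨M, hM⟩ : ∃ M, M = ⌊(N : ℝ) + h⌋₊ := ⟨_, rfl⟩
  have hNM : N ≤ M := hM ▸ Nat.le_floor (by linarith)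
  have hsub : Icc 1 N ⊆ Icc 1 M := Icc_subset_Icc_right hNM
  obtain ⟨R, hR⟩ : ∃ R : ℂ, R = ∑ n ∈ Icc 1 M \ Icc 1 N, f n * ((N + h - n : ℝ) : ℂ) := ⟨_, rfl⟩
  have hx : ∀ z : ℝ, z ≠ 0 → (z : ℂ) * smoothSum f z =
      ∑ n ∈ Icc 1 ⌊z⌋₊, f n * ((z - n : ℝ) : ℂ) := by
    intro z hz
    rw [smoothSum, mul_sum]
    refine sum_congr rfl fun n _ => ?_
    have : (z : ℂ) ≠ 0 := Complex.ofReal_ne_zero.2 hz
    push_cast
    field_simp
  have e : (((N : ℝ) + h : ℝ) : ℂ) * smoothSum f (N + h) =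
      ((N : ℝ) : ℂ) * smoothSum f (N : ℝ) + (∑ n ∈ Icc 1 N, f n) * (h : ℂ) + R := by
    rw [hx _ (by linarith), hx _ hN0.ne', Nat.floor_natCast, ← hM, hR, ← sum_sdiff hsub, add_comm,
      sum_mul, ← sum_add_distrib]
    congr 1
    refine sum_congr rfl fun n _ => ?_
    push_cast
    ring
  have hR' : ‖R‖ ≤ h * (h + 1) := by
    rw [hR]
    refine (norm_sum_le _ _).trans ((sum_le_card_nsmul _ _ h fun n hn => ?_).trans ?_)
    · rw [Finset.mem_sdiff, mem_Icc, mem_Icc, not_and, not_le] at hn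
      have h1 : (N : ℝ) < n := Nat.cast_lt.2 (hn.2 hn.1.1)
      have h2 : (n : ℝ) ≤ N + h :=
        (Nat.cast_le.2 hn.1.2).trans (hM ▸ Nat.floor_le (by linarith))
      rw [norm_mul, Complex.norm_real, Real.norm_eq_abs,
        abs_of_nonneg (show 0 ≤ (N : ℝ) + h - n by linarith)]
      exact (mul_le_of_le_one_left (by linarith) (hf n)).trans (by linarith)
    · rw [nsmul_eq_mul, card_sdiff_of_subset hsub, Nat.card_Icc, Nat.card_Icc, mul_comm]
      refine mul_le_mul_of_nonneg_left ?_ hh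
      rw [Nat.cast_sub (by omega)]
      simp only [Nat.add_sub_cancel]
      rw [hM]
      linarith [Nat.floor_le (show 0 ≤ (N : ℝ) + h by linarith)]
  have e2 : (∑ n ∈ Icc 1 N, f n) * (h : ℂ) = (((N : ℝ) + h : ℝ) : ℂ) * smoothSum f (N + h) -
      ((N : ℝ) : ℂ) * smoothSum f (N : ℝ) - R := by rw [e]; ring
  have h3 := congrArg (‖·‖) e2
  simp only [norm_mul, Complex.norm_real, Real.norm_eq_abs, abs_of_nonneg hh] at h3
  rw [h3]
  refine (norm_sub_le _ _).trans (add_le_add ((norm_sub_le _ _).trans (le_of_eq ?_)) hR')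
  rw [norm_mul, norm_mul, Complex.norm_real, Complex.norm_real, Real.norm_eq_abs, Real.norm_eq_abs,
    abs_of_nonneg hN0.le, abs_of_nonneg (show 0 ≤ (N : ℝ) + h by linarith)]

theorem norm_char_moebius_le {q : ℕ} (χ : DirichletCharacter ℂ q) (n : ℕ) :
    ‖χ n * (μ n : ℂ)‖ ≤ 1 := by
  rw [norm_mul, Complex.norm_intCast]
  exact mul_le_one₀ (χ.norm_le_one _) (abs_nonneg _)
    (by exact_mod_cast ArithmeticFunction.abs_moebius_le_one)

/-- **The sums of `χ μ`.** -/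
theorem exists_charSum_le (A B : ℕ) : ∃ C, 0 ≤ C ∧ ∀ᶠ N : ℕ in atTop,
    ∀ (q : ℕ) [NeZero q] (χ : DirichletCharacter ℂ q), (q : ℝ) ≤ Real.log N ^ B →
      ‖∑ n ∈ Icc 1 N, χ n * (μ n : ℂ)‖ ≤ C * N / Real.log N ^ A := by
  obtain ⟨C, hC, h⟩ := exists_smooth_char_le (2 * A) B
  refine ⟨5 * C + 2, by positivity, ?_⟩
  filter_upwards [eventually_ge_atTop 3, BombieriVinogradov.eventually_log_pow_le A one_pos]
    with N hN hLA q _ χ hq
  obtain ⟨L, hL⟩ : ∃ L, L = Real.log N := ⟨_, rfl⟩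
  rw [← hL] at hLA hq ⊢
  rw [Real.rpow_one] at hLA
  have hN3 : (3 : ℝ) ≤ N := Nat.ofNat_le_cast.2 hN
  have hL1 : 1 ≤ L := by
    rw [hL, Real.le_log_iff_exp_le (by linarith)]
    linarith [Real.exp_one_lt_three]
  obtain ⟨w, hw⟩ : ∃ w, w = (N : ℝ) / L ^ A := ⟨_, rfl⟩
  have hw1 : 1 ≤ w := hw ▸ (one_le_div (by positivity)).2 hLA
  have hwN : w ≤ N := hw ▸ div_le_self (by linarith) (one_le_pow₀ hL1)
  have hb : ∀ z : ℝ, N ≤ z →
      z * ‖smoothSum (fun n => χ n * (μ n : ℂ)) z‖ ≤ C * z ^ 2 / L ^ (2 * A) := by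
    intro z hz
    have hl : L ≤ Real.log z := hL ▸ Real.log_le_log (by linarith) hz
    refine (mul_le_mul_of_nonneg_left (h z (by linarith) q χ
      (hq.trans (pow_le_pow_left₀ (by linarith) hl B))) (by linarith)).trans ?_
    rw [← mul_div_assoc, show z * (C * z) = C * z ^ 2 by ring]
    exact div_le_div_of_nonneg_left (mul_nonneg hC (sq_nonneg z)) (by positivity)
      (pow_le_pow_left₀ (by linarith) hl _)
  have h1 := norm_sum_mul_le (norm_char_moebius_le χ) N (show 1 ≤ N by omega)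
    (show 0 ≤ w by linarith)
  have h2 := hb ((N : ℝ) + w) (by linarith)
  have h3 := hb N le_rfl
  have h5 : C * (N : ℝ) ^ 2 / L ^ (2 * A) = C * w ^ 2 := by
    rw [hw, div_pow, ← pow_mul, mul_comm A 2]
    ring
  have h6 : C * ((N : ℝ) + w) ^ 2 / L ^ (2 * A) ≤ 4 * (C * w ^ 2) := by
    rw [← h5, ← mul_div_assoc, show 4 * (C * (N : ℝ) ^ 2) = C * (4 * (N : ℝ) ^ 2) by ring]
    gcongr
    nlinarith
  have h7 : ‖∑ n ∈ Icc 1 N, χ n * (μ n : ℂ)‖ * w ≤ ((5 * C + 2) * w) * w := by nlinarith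
  refine (le_of_mul_le_mul_right h7 (by linarith)).trans (le_of_eq ?_)
  rw [hw]
  ring

/-- **The classes prime to the modulus.** -/
theorem exists_unitClass_le (A B : ℕ) : ∃ C, 0 ≤ C ∧ ∀ᶠ N : ℕ in atTop,
    ∀ (q : ℕ) [NeZero q] (a : ZMod q), IsUnit a → (q : ℝ) ≤ Real.log N ^ B →
      |∑ n ∈ (Icc 1 N).filter (fun n : ℕ => (n : ZMod q) = a), (μ n : ℝ)| ≤
        C * N / Real.log N ^ A := by
  obtain ⟨C, hC, h⟩ := exists_charSum_le A B
  refine ⟨C, hC, h.mono fun N hN q _ a ha hq => ?_⟩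
  obtain ⟨S, hS⟩ : ∃ S : ℝ, S = ∑ n ∈ (Icc 1 N).filter (fun n : ℕ => (n : ZMod q) = a), (μ n : ℝ) :=
    ⟨_, rfl⟩
  rw [← hS]
  have hφ : (0 : ℝ) < q.totient := Nat.cast_pos.2 (Nat.totient_pos.2 (NeZero.pos q))
  have e : ((q.totient : ℝ) * S : ℝ) =
      ∑ χ : DirichletCharacter ℂ q, χ a⁻¹ * ∑ n ∈ Icc 1 N, χ n * (μ n : ℂ) := by
    simp only [mul_sum]
    rw [sum_comm, hS, sum_filter, mul_sum, Complex.ofReal_sum]
    refine sum_congr rfl fun n _ => ?_
    simp only [← mul_assoc]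
    rw [← sum_mul, DirichletCharacter.sum_char_inv_mul_char_eq ℂ ha]
    by_cases h1 : a = (n : ZMod q)
    · rw [if_pos h1, if_pos h1.symm]
      push_cast
      rfl
    · rw [if_neg h1, if_neg fun h2 => h1 h2.symm]
      simp
  have h1 : ‖((q.totient : ℝ) * S : ℝ)‖ ≤ q.totient * (C * N / Real.log N ^ A) := by
    rw [← Complex.norm_real, e]
    refine (norm_sum_le _ _).trans ((sum_le_card_nsmul _ _ (C * N / Real.log N ^ A)
      fun χ _ => ?_).trans ?_)
    · rw [norm_mul]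
      exact (mul_le_of_le_one_left (norm_nonneg _) (χ.norm_le_one _)).trans (hN q χ hq)
    · rw [nsmul_eq_mul, Finset.card_univ, ← Nat.card_eq_fintype_card,
        DirichletCharacter.card_eq_totient_of_hasEnoughRootsOfUnity]
  rw [Real.norm_eq_abs, abs_mul, Nat.abs_cast] at h1
  exact le_of_mul_le_mul_left h1 hφ

theorem moebius_mul_eq (d m : ℕ) :
    (μ (d * m) : ℝ) = if m.Coprime d then (μ d : ℝ) * μ m else 0 := by
  split_ifs with h
  · rw [ArithmeticFunction.isMultiplicative_moebius.map_mul_of_coprime h.symm, Int.cast_mul]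
  · rw [ArithmeticFunction.moebius_eq_zero_of_not_squarefree fun hs =>
      h (Nat.coprime_of_squarefree_mul hs).symm]
    simp

/-- A class split by the common divisor. -/
theorem abs_classSum_le {N q a : ℕ} (hq : 0 < q) {R : ℝ}
    (h : ∀ b : ℕ, b.Coprime q →
      |∑ m ∈ (Icc 1 (N / a.gcd q)).filter (fun m : ℕ => m % q = b % q), (μ m : ℝ)| ≤ R) :
    |∑ n ∈ (Icc 1 N).filter (fun n : ℕ => n ≡ a [MOD q]), (μ n : ℝ)| ≤ q * R := by
  classical
  obtain ⟨d, hd⟩ : ∃ d, d = a.gcd q := ⟨_, rfl⟩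
  rw [← hd] at h
  have hd0 : 0 < d := hd ▸ Nat.gcd_pos_of_pos_right a hq
  obtain ⟨a', q', hco, ha', hq'⟩ := Nat.exists_coprime a q
  rw [← hd] at ha' hq'
  obtain ⟨P, hP⟩ : ∃ P : ℕ → Prop, P = fun m => m ≡ a' [MOD q'] ∧ m.Coprime d := ⟨_, rfl⟩
  have hR : 0 ≤ R := (abs_nonneg _).trans (h 1 (Nat.coprime_one_left q))
  have e : ∑ n ∈ (Icc 1 N).filter (fun n : ℕ => n ≡ a [MOD q]), (μ n : ℝ) =
      (μ d : ℝ) * ∑ m ∈ (Icc 1 (N / d)).filter P, (μ m : ℝ) := by
    rw [sum_filter, sum_filter, mul_sum]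
    refine (sum_bij_ne_zero (fun m _ _ => d * m) (fun m hm _ => ?_) (fun m _ _ m' _ _ e => ?_)
      (fun n hn hne => ?_) fun m hm hne => ?_).symm
    · rw [mem_Icc] at hm ⊢
      exact ⟨Nat.mul_pos hd0 hm.1, (Nat.mul_le_mul_left d hm.2).trans (Nat.mul_div_le N d)⟩
    · exact Nat.eq_of_mul_eq_mul_left hd0 e
    · split_ifs at hne with hmod
      · have hdn : d ∣ n := (hmod.dvd_iff (hd ▸ Nat.gcd_dvd_right a q)).2
          (hd ▸ Nat.gcd_dvd_left a q)
        obtain ⟨m, rfl⟩ := hdn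
        rw [mem_Icc] at hn
        have hc : m.Coprime d := by
          by_contra hc
          rw [moebius_mul_eq, if_neg hc] at hne
          exact hne rfl
        have hm' : m ≡ a' [MOD q'] := by
          rw [ha', hq', mul_comm a', mul_comm q'] at hmod
          exact hmod.mul_left_cancel' hd0.ne'
        refine ⟨m, mem_Icc.2 ⟨Nat.pos_of_mul_pos_left hn.1, (Nat.le_div_iff_mul_le hd0).2
          (by rw [mul_comm]; exact hn.2)⟩, ?_, rfl⟩
        rw [hP, if_pos ⟨hm', hc⟩]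
        rwa [moebius_mul_eq, if_pos hc] at hne
      · exact absurd rfl hne
    · rw [hP] at hne ⊢
      split_ifs at hne with hm'
      · rw [if_pos hm', if_pos, moebius_mul_eq, if_pos hm'.2]
        rw [ha', hq', mul_comm a', mul_comm q']
        exact hm'.1.mul_left' d
      · simp at hne
  rw [e, abs_mul]
  refine (mul_le_of_le_one_left (abs_nonneg _)
    (by exact_mod_cast ArithmeticFunction.abs_moebius_le_one)).trans ?_
  rw [← sum_fiberwise_of_maps_to (g := fun m => m % q) (t := range q)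
    fun m _ => mem_range.2 (Nat.mod_lt m hq)]
  refine (abs_sum_le_sum_abs _ _).trans ((sum_le_card_nsmul _ _ R fun b hb => ?_).trans
    (le_of_eq (by rw [card_range, nsmul_eq_mul])))
  rw [mem_range] at hb
  have hcond : ∀ m : ℕ, m % q = b → (P m ↔ P b) := by
    intro m hm
    have hmb : m ≡ b [MOD q] := by rw [Nat.ModEq, hm, Nat.mod_eq_of_lt hb]
    have h1 : m ≡ b [MOD q'] := hmb.of_dvd (hq' ▸ dvd_mul_right q' d)
    have h2 : m.gcd d = b.gcd d := (hmb.of_dvd (hq' ▸ dvd_mul_left d q')).gcd_eq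
    rw [hP]
    simp only [Nat.Coprime, h2]
    exact and_congr_left fun _ => ⟨fun h => h1.symm.trans h, fun h => h1.trans h⟩
  by_cases hPb : P b
  · refine le_of_eq_of_le (congrArg _ (sum_congr ?_ fun m _ => rfl)) (h b ?_)
    · ext m
      simp only [mem_filter, Nat.mod_eq_of_lt hb]
      exact ⟨fun hm => ⟨hm.1.1, hm.2⟩, fun hm => ⟨⟨hm.1, (hcond m hm.2).2 hPb⟩, hm.2⟩⟩
    · rw [hP] at hPb
      rw [hq']
      refine Nat.Coprime.mul_right ?_ hPb.2
      rw [Nat.Coprime, hPb.1.gcd_eq]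
      exact hco
  · rw [sum_eq_zero fun m hm => ?_, abs_zero]
    · exact hR
    · rw [mem_filter, mem_filter] at hm
      exact absurd ((hcond m hm.2).1 hm.1.2) hPb

/-- **All classes.** -/
theorem exists_class_le (A B : ℕ) : ∃ C, 0 ≤ C ∧ ∀ᶠ N : ℕ in atTop, ∀ q a : ℕ, 0 < q →
    (q : ℝ) ≤ Real.log N ^ B →
      |∑ n ∈ (Icc 1 N).filter (fun n : ℕ => n ≡ a [MOD q]), (μ n : ℝ)| ≤
        C * N / Real.log N ^ A := by
  obtain ⟨C, hC, h⟩ := exists_unitClass_le (A + B) (B + 1)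
  obtain ⟨N₀, hN₀⟩ := eventually_atTop.1 h
  refine ⟨C * 2 ^ (A + B), by positivity, ?_⟩
  filter_upwards [eventually_ge_atTop (max 4 (N₀ * N₀)),
    BombieriVinogradov.eventually_log_pow_le B (show (0 : ℝ) < 1 / 4 by norm_num),
    ((tendsto_rpow_atTop (show (0 : ℝ) < 1 / 4 by norm_num)).comp
      (tendsto_natCast_atTop_atTop (R := ℝ))).eventually_ge_atTop 2,
    BombieriVinogradov.eventually_log_ge (2 * 2 ^ B + 2)] with N hN hlog h4 hlarge q a hq hqL
  simp only [Function.comp_apply] at h4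
  obtain ⟨L, hL⟩ : ∃ L, L = Real.log N := ⟨_, rfl⟩
  rw [← hL] at hlog hlarge hqL ⊢
  have hN4 : 4 ≤ N := le_of_max_le_left hN
  have hN0 : (0 : ℝ) < N := Nat.cast_pos.2 (by omega)
  have h2B : (1 : ℝ) ≤ 2 ^ B := one_le_pow₀ one_le_two
  obtain ⟨d, hd⟩ : ∃ d, d = a.gcd q := ⟨_, rfl⟩
  have hd0 : 0 < d := hd ▸ Nat.gcd_pos_of_pos_right a hq
  obtain ⟨r, hr⟩ : ∃ r, r = √(N : ℝ) := ⟨_, rfl⟩
  have hrr : r * r = N := hr ▸ Real.mul_self_sqrt hN0.le
  have hr2 : 2 ≤ r := hr ▸ Real.le_sqrt_of_sq_le (by norm_num; exact_mod_cast hN4)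
  have hq4 : (N : ℝ) ^ (1 / 4 : ℝ) * (N : ℝ) ^ (1 / 4 : ℝ) = r := by
    rw [hr, ← Real.rpow_add hN0, Real.sqrt_eq_rpow]
    norm_num
  have hdr : (d : ℝ) * 2 ≤ r := by
    have h1 : (d : ℝ) ≤ (N : ℝ) ^ (1 / 4 : ℝ) :=
      (Nat.cast_le.2 (hd ▸ Nat.gcd_le_right a hq : d ≤ q)).trans (hqL.trans hlog)
    rw [← hq4]
    exact mul_le_mul h1 h4 two_pos.le (by positivity)
  obtain ⟨K, hK⟩ : ∃ K, K = N / d := ⟨_, rfl⟩
  have hKN : (K : ℝ) ≤ N := Nat.cast_le.2 (hK ▸ Nat.div_le_self N d)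
  have hrK : r ≤ K := by
    have h1 : (N : ℝ) < (K + 1) * d := by
      have := Nat.lt_mul_div_succ N hd0
      rw [← hK, mul_comm] at this
      exact_mod_cast this
    nlinarith
  have hlK : L / 2 ≤ Real.log K := by
    rw [hL, ← Real.log_sqrt hN0.le, ← hr]
    exact Real.log_le_log (by linarith) hrK
  have hKN₀ : N₀ ≤ K := by
    have h1 : (N₀ : ℝ) ≤ r := hr ▸ Real.le_sqrt_of_sq_le (by
      rw [sq]; exact_mod_cast le_of_max_le_right hN)
    exact Nat.cast_le.1 (h1.trans hrK)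
  have : NeZero q := ⟨hq.ne'⟩
  have hqK : (q : ℝ) ≤ Real.log K ^ (B + 1) := by
    refine hqL.trans ((pow_le_pow_left₀ (by linarith) (show L ≤ 2 * Real.log K by linarith)
      B).trans ?_)
    rw [mul_pow, pow_succ, mul_comm]
    exact mul_le_mul_of_nonneg_left (by linarith) (by
      have : 0 ≤ Real.log K := by linarith
      positivity)
  refine (abs_classSum_le hq (R := C * 2 ^ (A + B) * N / L ^ (A + B)) fun b hb => ?_).trans ?_
  · rw [← hd, ← hK]
    refine le_trans (le_of_eq_of_le (congrArg _ (sum_congr ?_ fun m _ => rfl))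
      (hN₀ K hKN₀ q (b : ZMod q) ((ZMod.isUnit_iff_coprime b q).2 hb) hqK)) ?_
    · ext m
      simp only [mem_filter, ZMod.natCast_eq_natCast_iff']
    · rw [show C * 2 ^ (A + B) * (N : ℝ) / L ^ (A + B) = C * N / (L / 2) ^ (A + B) by
        rw [div_pow]; field_simp]
      exact div_le_div₀ (by positivity) (mul_le_mul_of_nonneg_left hKN hC)
        (pow_pos (by linarith) _) (pow_le_pow_left₀ (by linarith) hlK _)
  · have hL0 : 0 < L := by linarith
    refine (mul_le_mul_of_nonneg_right hqL (by positivity)).trans (le_of_eq ?_)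
    rw [pow_add L A B]
    field_simp

end FA.DavenportMoebius
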