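import Fermat.Agent.DavenportMoebius.Davenport

/-!
# Consequences of Davenport's theorem

The bounds for every `N ≥ 2`, periodic weights and the convergence of `∑ μ n e (n α) / n`.
-/

set_option autoImplicit false

noncomputable section

namespace FA.DavenportMoebius

open Finset Filter Complex
open FA.ThreePrimes (eAdd norm_eAdd)
open scoped Topology ArithmeticFunction.Moebius

/-- From all large `N` to all `N ≥ 2`, for sums of `N` terms of modulus `≤ 1`. -/
theorem exists_all_of_eventually {P : ℕ → ℝ → Prop} (A : ℕ) (hP : ∀ N s, P N s → s ≤ N)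
    (h : ∃ C, 0 ≤ C ∧ ∀ᶠ N : ℕ in atTop, ∀ s, P N s → s ≤ C * N / Real.log N ^ A) :
    ∃ C, 0 < C ∧ ∀ N : ℕ, 2 ≤ N → ∀ s, P N s → s ≤ C * N / Real.log N ^ A := by
  obtain ⟨C, hC, h⟩ := h
  obtain ⟨N₀, hN₀⟩ := eventually_atTop.1 h
  have hl0 : 0 ≤ Real.log N₀ := Real.log_natCast_nonneg N₀
  refine ⟨C + (Real.log N₀ + 1) ^ A, by positivity, fun N hN s hs => ?_⟩
  have hN0 : (0 : ℝ) < N := Nat.cast_pos.2 (by omega)
  have hl : 0 < Real.log N := Real.log_pos (Nat.one_lt_cast.2 (by omega))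
  rcases le_or_gt N₀ N with hle | hlt
  · refine (hN₀ N hle s hs).trans ?_
    gcongr
    exact le_add_of_nonneg_right (by positivity)
  · refine (hP N s hs).trans ?_
    rw [le_div_iff₀ (by positivity), mul_comm]
    refine mul_le_mul_of_nonneg_right ((pow_le_pow_left₀ hl.le ?_ A).trans
      (le_add_of_nonneg_left hC)) hN0.le
    linarith [Real.log_le_log hN0 (Nat.cast_le.2 hlt.le : (N : ℝ) ≤ N₀)]

theorem norm_twisted_sum_le {c : ℕ → ℤ} (hc : ∀ n, |c n| ≤ 1) (α : ℝ) (N : ℕ) :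
    ‖∑ n ∈ Icc 1 N, (c n : ℂ) * eAdd (n * α)‖ ≤ N := by
  refine (norm_sum_le _ _).trans ((sum_le_card_nsmul _ _ 1 fun n _ => ?_).trans (by simp))
  rw [norm_mul, norm_eAdd, mul_one, Complex.norm_intCast]
  exact_mod_cast hc n

theorem abs_liouville_le (n : ℕ) : |ArithmeticFunction.liouville n| ≤ 1 := by
  rcases eq_or_ne n 0 with rfl | h
  · simp
  · simp [ArithmeticFunction.liouville_apply h]

theorem abs_class_sum_le (N q a : ℕ) :
    |∑ n ∈ (Icc 1 N).filter (fun n : ℕ => n ≡ a [MOD q]), (μ n : ℝ)| ≤ N := by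
  refine (abs_sum_le_sum_abs _ _).trans ((sum_le_card_nsmul _ _ 1 fun n _ => ?_).trans ?_)
  · exact_mod_cast ArithmeticFunction.abs_moebius_le_one
  · rw [nsmul_eq_mul, mul_one]
    refine (Nat.cast_le.2 (card_filter_le _ _)).trans ?_
    simp

/-- Periodic weights. -/
theorem exists_periodic_le (A : ℕ) {q : ℕ} (hq : 0 < q) (f : ℕ → ℂ)
    (hf : ∀ n, f (n + q) = f n) : ∃ C, 0 ≤ C ∧ ∀ᶠ N : ℕ in atTop,
      ‖∑ n ∈ Icc 1 N, (μ n : ℂ) * f n‖ ≤ C * N / Real.log N ^ A := by
  obtain ⟨C, hC, h⟩ := exists_class_le A 1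
  refine ⟨(∑ r ∈ range q, ‖f r‖) * C, by positivity, ?_⟩
  filter_upwards [h, BombieriVinogradov.eventually_log_ge (q : ℝ)] with N hN hlog
  have hper : ∀ n, f n = f (n % q) := fun n =>
    (Function.Periodic.map_mod_nat (f := f) hf n).symm
  rw [← sum_fiberwise_of_maps_to (g := fun n => n % q) (t := range q)
    fun n _ => mem_range.2 (Nat.mod_lt n hq)]
  refine (norm_sum_le _ _).trans ((sum_le_sum (g := fun r =>
    ‖f r‖ * (C * N / Real.log N ^ A)) fun r hr => ?_).trans ?_)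
  · rw [mem_range] at hr
    have e : ∑ n ∈ (Icc 1 N).filter (fun n => n % q = r), (μ n : ℂ) * f n =
        ((∑ n ∈ (Icc 1 N).filter (fun n : ℕ => n ≡ r [MOD q]), (μ n : ℝ) : ℝ) : ℂ) * f r := by
      rw [Complex.ofReal_sum, sum_mul]
      refine sum_congr ?_ fun n hn => ?_
      · ext n
        simp only [mem_filter, Nat.ModEq, Nat.mod_eq_of_lt hr]
      · rw [mem_filter, Nat.ModEq, Nat.mod_eq_of_lt hr] at hn
        rw [hper n, hn.2, Complex.ofReal_intCast]
    rw [e, norm_mul, Complex.norm_real, Real.norm_eq_abs, mul_comm]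
    exact mul_le_mul_of_nonneg_left (hN q r hq (by rwa [pow_one])) (norm_nonneg _)
  · rw [← sum_mul]
    exact le_of_eq (by ring)

theorem summable_inv_mul_log_sq :
    Summable fun j : ℕ => 1 / (((j : ℝ) + 3) * Real.log ((j : ℝ) + 3) ^ 2) := by
  obtain ⟨u, hu⟩ : ∃ u : ℕ → ℝ, u = fun j : ℕ => 1 / Real.log ((j : ℝ) + 3) := ⟨_, rfl⟩
  have hpos : ∀ j : ℕ, 1 ≤ Real.log ((j : ℝ) + 3) := fun j => by
    have : (0 : ℝ) ≤ j := Nat.cast_nonneg j
    rw [Real.le_log_iff_exp_le (by positivity)]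
    linarith [Real.exp_one_lt_three]
  refine summable_of_sum_range_le (fun j => by
    have := hpos j
    positivity) (c := 4 * u 0) fun n => ?_
  refine (sum_le_sum (g := fun j => 4 * (u j - u (j + 1))) fun j _ => ?_).trans ?_
  · have hj : (0 : ℝ) ≤ j := Nat.cast_nonneg j
    have hl := hpos j
    have h1 : Real.log ((j : ℝ) + 4) - Real.log ((j : ℝ) + 3) ≥ 1 / ((j : ℝ) + 4) := by
      rw [← Real.log_div (by positivity) (by positivity)]
      refine le_trans ?_ (Real.one_sub_inv_le_log_of_pos (by positivity))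
      rw [inv_div, one_sub_div (by positivity)]
      norm_num
    have h2 : Real.log ((j : ℝ) + 4) ≤ 2 * Real.log ((j : ℝ) + 3) := by
      rw [show 2 * Real.log ((j : ℝ) + 3) = Real.log (((j : ℝ) + 3) ^ 2) by
        rw [Real.log_pow]; norm_num]
      exact Real.log_le_log (by positivity) (by nlinarith)
    have h3 : 0 < Real.log ((j : ℝ) + 4) := by
      linarith [h1, show 0 < 1 / ((j : ℝ) + 4) by positivity]
    rw [hu]
    push_cast
    rw [show (j : ℝ) + 1 + 3 = (j : ℝ) + 4 by ring,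
      div_sub_div _ _ (show Real.log ((j : ℝ) + 3) ≠ 0 by linarith) h3.ne', one_mul, mul_one]
    refine le_trans ?_ (mul_le_mul_of_nonneg_left (div_le_div_of_nonneg_right h1.le
      (by positivity)) (by norm_num : (0 : ℝ) ≤ 4))
    rw [div_div, mul_one_div, div_le_div_iff₀ (by positivity) (by positivity)]
    have h4 := mul_le_mul_of_nonneg_left h2
      (show 0 ≤ ((j : ℝ) + 4) * Real.log ((j : ℝ) + 3) by positivity)
    have h5 := mul_le_mul_of_nonneg_right (show (j : ℝ) + 4 ≤ 2 * ((j : ℝ) + 3) by linarith)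
      (show 0 ≤ Real.log ((j : ℝ) + 3) * Real.log ((j : ℝ) + 3) by positivity)
    nlinarith
  · rw [← mul_sum, sum_range_sub', hu]
    have := hpos n
    have h0 : 0 ≤ 1 / Real.log ((n : ℝ) + 3) := by positivity
    linarith

/-- **`∑ μ n e (n α) / n` converges.** -/
theorem exists_tendsto_series (α : ℝ) : ∃ l : ℂ, Tendsto
    (fun N : ℕ => ∑ n ∈ Icc 1 N, (μ n : ℂ) * eAdd (n * α) / n) atTop (𝓝 l) := by
  obtain ⟨C, hC, h⟩ := exists_davenport 2
  obtain ⟨S, hS⟩ : ∃ S : ℕ → ℂ, S = fun N => ∑ n ∈ Icc 1 N, (μ n : ℂ) * eAdd (n * α) := ⟨_, rfl⟩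
  have key : ∀ N : ℕ, ∑ n ∈ Icc 1 N, (μ n : ℂ) * eAdd (n * α) / n =
      S N / ((N : ℂ) + 1) + ∑ j ∈ range (N + 1), S j / ((j : ℂ) * ((j : ℂ) + 1)) := by
    intro N
    induction N with
    | zero => simp [hS]
    | succ N ih =>
      have e : S (N + 1) = S N + (μ (N + 1) : ℂ) * eAdd ((N + 1 : ℕ) * α) := by
        rw [hS]
        exact sum_Icc_succ_top (by omega) _
      rw [sum_Icc_succ_top (by omega), ih, sum_range_succ _ (N + 1)]
      rw [e]
      have h1 : ((N : ℂ) + 1) ≠ 0 := by exact_mod_cast Nat.succ_ne_zero N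
      have h2 : ((N : ℂ) + 1 + 1) ≠ 0 := by exact_mod_cast Nat.succ_ne_zero (N + 1)
      push_cast
      field_simp
      ring
  have hb : ∀ᶠ j : ℕ in atTop, ‖S j‖ ≤ C * j / Real.log j ^ 2 := h.mono fun j hj => hS ▸ hj α
  have h0 : Tendsto (fun N : ℕ => S N / ((N : ℂ) + 1)) atTop (𝓝 0) := by
    refine squeeze_zero_norm' ?_ ((((tendsto_pow_atTop two_ne_zero).comp
      (Real.tendsto_log_atTop.comp
        tendsto_natCast_atTop_atTop)).inv_tendsto_atTop.const_mul C).trans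
        (by rw [mul_zero]))
    filter_upwards [hb, eventually_ge_atTop 2] with N hN hN2
    have hl : 0 < Real.log N := Real.log_pos (Nat.one_lt_cast.2 (by omega))
    rw [norm_div, show ((N : ℂ) + 1) = ((N + 1 : ℕ) : ℂ) by push_cast; rfl, Complex.norm_natCast,
      div_le_iff₀ (by positivity)]
    simp only [Function.comp_apply, Pi.inv_apply]
    refine hN.trans ?_
    push_cast
    rw [div_eq_mul_inv, mul_right_comm]
    exact mul_le_mul_of_nonneg_left (by linarith) (by positivity)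
  have hsum : Summable fun j : ℕ => S j / ((j : ℂ) * ((j : ℂ) + 1)) := by
    obtain ⟨N₀, hN₀⟩ := eventually_atTop.1 hb
    rw [← summable_nat_add_iff (N₀ + 3)]
    refine Summable.of_norm_bounded
      ((summable_nat_add_iff N₀).2 (summable_inv_mul_log_sq.mul_left C)) fun j => ?_
    obtain ⟨m, hm⟩ : ∃ m : ℕ, m = j + (N₀ + 3) := ⟨_, rfl⟩
    have hj := hN₀ m (by omega)
    have hm1 : (1 : ℝ) < m := Nat.one_lt_cast.2 (by omega)
    have hl : 0 < Real.log m := Real.log_pos hm1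
    rw [← hm, show ((j + N₀ : ℕ) : ℝ) + 3 = (m : ℝ) by rw [hm]; push_cast; ring, norm_div, norm_mul,
      show ((m : ℂ) + 1) = ((m + 1 : ℕ) : ℂ) by push_cast; rfl, Complex.norm_natCast,
      Complex.norm_natCast, div_le_iff₀ (by positivity)]
    refine hj.trans ?_
    rw [← mul_div_assoc, mul_one, div_mul_eq_mul_div, div_le_div_iff₀ (by positivity)
      (by positivity)]
    push_cast
    have : 0 ≤ C * m * (m : ℝ) * Real.log m ^ 2 := by positivity
    nlinarith [mul_nonneg (mul_nonneg hC (show (0 : ℝ) ≤ m by positivity))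
      (sq_nonneg (Real.log m))]
  refine ⟨∑' j, S j / ((j : ℂ) * ((j : ℂ) + 1)), ?_⟩
  have h1 := h0.add ((hsum.hasSum.tendsto_sum_nat).comp (tendsto_add_atTop_nat 1))
  rw [zero_add] at h1
  exact h1.congr fun N => (key N).symm

end FA.DavenportMoebius
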