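import Fermat.Agent.ThreePrimes.Vaughan

/-!
# The sum `∑ μ n e (α n)` on the minor arcs

`μ = 2 μ_{≤ U} - μ_{≤ U} * μ_{≤ U} * 1 + μ_{> U} * (μ_{> U} * 1)`: the middle term by the inequality
of Cauchy (its coefficients are `≤ d (m)`), the last one is a sum of type II.
-/

set_option autoImplicit false

noncomputable section

namespace FA.DavenportMoebius

open Finset Complex ArithmeticFunction
open FA.ThreePrimes
open scoped Real

/-- **Vaughan's identity for `μ`.** -/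
theorem vaughan_moebius (U : ℕ) : moebiusR = lowPart U moebiusR + lowPart U moebiusR -
    lowPart U moebiusR * lowPart U moebiusR * oneR +
      highPart U moebiusR * (highPart U moebiusR * oneR) := by
  have h2 : moebiusR * oneR = 1 := coe_moebius_mul_coe_zeta
  unfold highPart
  linear_combination (2 * lowPart U moebiusR - moebiusR) * h2

theorem abs_lowPart_le (U m : ℕ) : |lowPart U moebiusR m| ≤ 1 := by
  rw [lowPart_apply]
  split_ifs
  · exact abs_moebiusR_le m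
  · simp

theorem norm_twist_low_moebius_le (α : ℝ) (U N : ℕ) :
    ‖twist α (lowPart U moebiusR) N‖ ≤ U := by
  refine (norm_sum_le _ _).trans ((sum_le_sum (g := fun n : ℕ => if n ≤ U then (1 : ℝ) else 0)
    fun n _ => ?_).trans ?_)
  · rw [norm_mul, norm_eAdd, mul_one, Complex.norm_real, Real.norm_eq_abs]
    split_ifs with h
    · exact abs_lowPart_le U n
    · simp [lowPart_apply, h]
  · rw [sum_boole]
    refine Nat.cast_le.2 ((card_le_card (t := Ioc 0 U) fun n hn => ?_).trans (by simp))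
    rw [mem_filter, mem_Ioc] at hn
    exact mem_Ioc.2 ⟨hn.1.1, hn.2⟩

theorem abs_low_low_le (U m : ℕ) :
    |(lowPart U moebiusR * lowPart U moebiusR) m| ≤ (m.divisors.card : ℝ) := by
  rw [mul_apply]
  refine (abs_sum_le_sum_abs _ _).trans ((sum_le_card_nsmul _ _ 1 fun x _ => ?_).trans ?_)
  · rw [abs_mul]
    exact mul_le_one₀ (abs_lowPart_le U _) (abs_nonneg _) (abs_lowPart_le U _)
  · rw [nsmul_eq_mul, mul_one, ← Nat.map_div_right_divisors, card_map]

theorem low_low_eq_zero {U m : ℕ} (h : U * U < m) :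
    (lowPart U moebiusR * lowPart U moebiusR) m = 0 := by
  rw [mul_apply]
  refine sum_eq_zero fun x hx => ?_
  rw [Nat.mem_divisorsAntidiagonal] at hx
  rw [lowPart_apply, lowPart_apply]
  split_ifs with h1 h2
  · exact absurd (hx.1 ▸ Nat.mul_le_mul h1 h2) (not_le.2 h)
  · exact mul_zero _
  · exact zero_mul _
  · exact zero_mul _

/-- `∑_{m ≤ K} d (m) ² / m = O ((log N) ^ 4)`. -/
theorem sum_card_sq_div_le {N K : ℕ} (hN : 0 < N) (hK : K ≤ N) :
    ∑ m ∈ Ioc 0 K, (m.divisors.card : ℝ) ^ 2 / m ≤ 48 * logOne N ^ 4 := by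
  obtain ⟨L, hL⟩ : ∃ L, L = logOne N := ⟨_, rfl⟩
  rw [← hL]
  have hL1 : 1 ≤ L := hL ▸ one_le_logOne N
  obtain ⟨F, hF⟩ : ∃ F : ℕ → ℝ, F = fun m : ℕ => (m.divisors.card : ℝ) ^ 2 / m := ⟨_, rfl⟩
  have hF0 : ∀ m, 0 ≤ F m := fun m => by rw [hF]; positivity
  have key : ∀ j : ℕ, 2 ^ j ≤ 2 * N → ∑ m ∈ Ioc 0 (2 ^ j), F m ≤ (j + 1) * (2 * (L + 1) ^ 3) := by
    intro j
    induction j with
    | zero =>
      intro _
      rw [pow_zero, show Ioc 0 1 = {1} from rfl, sum_singleton, hF]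
      have : 1 ≤ (L + 1) ^ 3 := one_le_pow₀ (by linarith)
      simp
      linarith
    | succ j ih =>
      intro hj
      have h2j : 2 ^ j ≤ 2 ^ (j + 1) := Nat.pow_le_pow_right two_pos (Nat.le_succ j)
      rw [← sum_Ioc_consecutive F (Nat.zero_le _) h2j, Nat.cast_succ, add_mul _ (1 : ℝ), one_mul]
      refine add_le_add (ih (h2j.trans hj)) ?_
      have hp : (0 : ℝ) < (2 : ℝ) ^ j := by positivity
      refine (sum_le_sum (g := fun m : ℕ => (m.divisors.card : ℝ) ^ 2 / (2 : ℝ) ^ j)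
        fun m hm => ?_).trans ?_
      · rw [mem_Ioc] at hm
        rw [hF]
        exact div_le_div_of_nonneg_left (sq_nonneg _) hp (by exact_mod_cast hm.1.le)
      · rw [← sum_div, div_le_iff₀ hp]
        refine (sum_le_sum_of_subset_of_nonneg (Ioc_subset_Ioc_left (Nat.zero_le _))
          fun m _ _ => sq_nonneg _).trans ((sum_card_divisors_sq_le _).trans ?_)
        have h3 : logOne (2 ^ (j + 1)) ≤ L + 1 := by
          rw [logOne, hL]
          linarith [log_le_logOne (N := N) hj]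
        refine (mul_le_mul_of_nonneg_left (pow_le_pow_left₀
          (zero_le_one.trans (one_le_logOne _)) h3 3) (by positivity)).trans (le_of_eq ?_)
        push_cast
        ring
  obtain ⟨j, hj⟩ : ∃ j, j = Nat.log 2 N + 1 := ⟨_, rfl⟩
  have hjN : 2 ^ j ≤ 2 * N := by
    rw [hj, pow_succ, mul_comm]
    exact Nat.mul_le_mul_left 2 (Nat.pow_log_le_self 2 hN.ne')
  have hKj : K ≤ 2 ^ j := hK.trans (hj ▸ (Nat.lt_pow_succ_log_self one_lt_two N).le)
  have h4 : ∑ m ∈ Ioc 0 K, F m ≤ (j + 1) * (2 * (L + 1) ^ 3) :=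
    (sum_le_sum_of_subset_of_nonneg (Ioc_subset_Ioc_right hKj) fun m _ _ => hF0 m).trans (key j hjN)
  rw [hF] at h4
  refine h4.trans ?_
  have hj3 : (j : ℝ) + 1 ≤ 3 * L := by
    have h5 := log_le_logOne (N := N) hjN
    rw [Nat.cast_pow, Real.log_pow, ← hL, Nat.cast_ofNat] at h5
    nlinarith [Real.log_two_gt_d9, (Nat.cast_nonneg j : (0 : ℝ) ≤ j)]
  calc ((j : ℝ) + 1) * (2 * (L + 1) ^ 3) ≤ 3 * L * (2 * (2 * L) ^ 3) := by gcongr; linarith
    _ ≤ _ := by nlinarith [pow_nonneg (show 0 ≤ L by linarith) 4]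

variable {q : ℕ} [NeZero q] {a : ℤ} {α : ℝ} {N : ℕ}

/-- The middle term. -/
theorem norm_low_low_le (ha : IsUnit (a : ZMod q)) (hα : |α - a / q| ≤ 1 / (q : ℝ) ^ 2)
    (hqN : q ≤ N) {U : ℕ} (hUN : U * U ≤ N) :
    ‖twist α (lowPart U moebiusR * lowPart U moebiusR * oneR) N‖ ≤
      √(48 * logOne N ^ 5 * N * (2 * (U * U : ℕ) + 4 * q + 20 * (N : ℝ) / q)) := by
  have hN : 0 < N := lt_of_lt_of_le (NeZero.pos q) hqN
  obtain ⟨K, hK⟩ : ∃ K, K = U * U := ⟨_, rfl⟩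
  rw [← hK] at hUN ⊢
  obtain ⟨c, hc⟩ : ∃ c, c = lowPart U moebiusR * lowPart U moebiusR := ⟨_, rfl⟩
  rw [← hc, twist_mul]
  obtain ⟨f, hf⟩ : ∃ f : ℕ → ℝ, f = fun m : ℕ => |c m| * √((N : ℝ) / m) := ⟨_, rfl⟩
  obtain ⟨g, hg⟩ : ∃ g : ℕ → ℝ, g = fun m : ℕ => √(clip ((N : ℝ) / m) (α * m)) := ⟨_, rfl⟩
  have h1 : ‖∑ m ∈ Ioc 0 N, (c m : ℂ) * innerSum α oneR N m‖ ≤ ∑ m ∈ Ioc 0 K, f m * g m := by
    refine (norm_sum_le _ _).trans ?_
    rw [← sum_subset (Ioc_subset_Ioc_right hUN) fun m hm hmK => ?_]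
    · refine sum_le_sum fun m hm => ?_
      rw [norm_mul, Complex.norm_real, Real.norm_eq_abs, hf, hg, mul_assoc]
      refine mul_le_mul_of_nonneg_left ((norm_innerSum_one_le α N m).trans
        ((clip_mono Nat.cast_div_le _).trans ?_)) (abs_nonneg _)
      rw [mul_comm (m : ℝ) α, ← Real.sqrt_mul (by positivity)]
      refine Real.le_sqrt_of_sq_le ?_
      rw [sq]
      exact mul_le_mul_of_nonneg_right (clip_le _ _) (clip_nonneg (by positivity) _)
    · rw [mem_Ioc] at hm hmK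
      rw [hc, low_low_eq_zero (by omega)]
      simp
  have h2 : (∑ m ∈ Ioc 0 K, f m * g m) ^ 2 ≤
      48 * logOne N ^ 5 * N * (2 * (K : ℝ) + 4 * q + 20 * (N : ℝ) / q) := by
    refine (sum_mul_sq_le_sq_mul_sq _ f g).trans ?_
    have hs : ∑ m ∈ Ioc 0 K, f m ^ 2 ≤ N * (48 * logOne N ^ 4) := by
      refine (sum_le_sum (g := fun m : ℕ => (N : ℝ) * ((m.divisors.card : ℝ) ^ 2 / m))
        fun m _ => ?_).trans ?_
      · rw [hf, mul_pow, Real.sq_sqrt (div_nonneg (Nat.cast_nonneg N) (Nat.cast_nonneg m))]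
        refine le_of_le_of_eq (mul_le_mul_of_nonneg_right (pow_le_pow_left₀ (abs_nonneg _)
          (hc ▸ abs_low_low_le U m) 2) (div_nonneg (Nat.cast_nonneg N) (Nat.cast_nonneg m))) ?_
        ring
      · rw [← mul_sum]
        exact mul_le_mul_of_nonneg_left (sum_card_sq_div_le hN hUN) (Nat.cast_nonneg N)
    have ht : ∑ m ∈ Ioc 0 K, g m ^ 2 ≤
        (2 * (K : ℝ) + 4 * q + 20 * (N : ℝ) / q) * logOne N := by
      simp only [hg, Real.sq_sqrt
        (clip_nonneg (div_nonneg (Nat.cast_nonneg N) (Nat.cast_nonneg _)) _)]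
      refine (le_of_eq_of_le (by rfl) (sum_clip_div_le ha hα (Nat.cast_nonneg N) K)).trans ?_
      have h2 : 1 + Real.log q ≤ logOne N := by
        unfold logOne
        linarith [Real.log_le_log (Nat.cast_pos.2 (NeZero.pos q)) (Nat.cast_le (α := ℝ).2 hqN)]
      have h3 : 1 + Real.log ((K : ℝ) + 1) ≤ 2 * logOne N := by
        have := log_le_logOne (N := N) (n := K + 1) (by omega)
        push_cast at this
        linarith [one_le_logOne N]
      have := mul_le_mul_of_nonneg_left h2 (show (0 : ℝ) ≤ 2 * K + 4 * q by positivity)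
      have := mul_le_mul_of_nonneg_left h3 (show (0 : ℝ) ≤ 10 * N / q by positivity)
      rw [show (2 * (K : ℝ) + 4 * q + 20 * (N : ℝ) / q) * logOne N =
        (2 * (K : ℝ) + 4 * q) * logOne N + 10 * N / q * (2 * logOne N) by ring]
      linarith
    refine (mul_le_mul hs ht (sum_nonneg fun m _ => sq_nonneg _) ?_).trans (le_of_eq (by ring))
    have := one_le_logOne N
    positivity
  exact h1.trans ((Real.le_sqrt_of_sq_le h2))

/-- **The minor arcs.** -/
theorem norm_moebius_twist_le (ha : IsUnit (a : ZMod q)) (hα : |α - a / q| ≤ 1 / (q : ℝ) ^ 2) :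
    ‖twist α moebiusR N‖ ≤ 400 * ((N : ℝ) / √(q : ℝ) + (N : ℝ) ^ (9 / 10 : ℝ) + √((N : ℝ) * q)) *
      logOne N ^ 4 := by
  obtain ⟨L, hL⟩ : ∃ L, L = logOne N := ⟨_, rfl⟩
  rw [← hL]
  have hL1 : 1 ≤ L := hL ▸ one_le_logOne N
  have hq0 : (0 : ℝ) < q := Nat.cast_pos.2 (NeZero.pos q)
  obtain ⟨T, hT⟩ : ∃ T : ℝ,
      T = (N : ℝ) / √(q : ℝ) + (N : ℝ) ^ (9 / 10 : ℝ) + √((N : ℝ) * q) := ⟨_, rfl⟩
  rw [← hT]
  have hT0 : 0 ≤ T := by rw [hT]; positivity
  rcases lt_or_ge N q with hNq | hqN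
  · refine (norm_sum_le _ _).trans ((sum_le_card_nsmul _ _ 1 fun n _ => ?_).trans ?_)
    · rw [norm_mul, norm_eAdd, mul_one, Complex.norm_real, Real.norm_eq_abs]
      exact abs_moebiusR_le n
    · rw [Nat.card_Ioc, Nat.sub_zero, nsmul_eq_mul, mul_one]
      have h1 : (N : ℝ) ≤ T := by
        refine le_trans ?_ (le_trans (le_add_of_nonneg_left (by positivity)) hT.ge)
        rw [Real.le_sqrt (Nat.cast_nonneg N) (by positivity), sq]
        exact mul_le_mul_of_nonneg_left (Nat.cast_le.2 hNq.le) (Nat.cast_nonneg N)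
      exact h1.trans ((show T ≤ 400 * T by linarith).trans
        (le_mul_of_one_le_right (by positivity) (one_le_pow₀ hL1)))
  have hN : 0 < N := lt_of_lt_of_le (NeZero.pos q) hqN
  have hN1 : (1 : ℝ) ≤ N := by exact_mod_cast hN
  obtain ⟨U, hU⟩ : ∃ U, U = ⌊(N : ℝ) ^ (2 / 5 : ℝ)⌋₊ := ⟨_, rfl⟩
  have hU1 : 0 < U := hU ▸ Nat.floor_pos.2 (Real.one_le_rpow hN1 (by norm_num))
  have hUle : (U : ℝ) ≤ (N : ℝ) ^ (2 / 5 : ℝ) := hU ▸ Nat.floor_le (by positivity)
  have hUge : (N : ℝ) ^ (2 / 5 : ℝ) ≤ 2 * U := by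
    have h1 := Nat.lt_floor_add_one ((N : ℝ) ^ (2 / 5 : ℝ))
    rw [← hU] at h1
    have : (1 : ℝ) ≤ U := by exact_mod_cast hU1
    linarith
  have hUU : ((U * U : ℕ) : ℝ) ≤ (N : ℝ) ^ (4 / 5 : ℝ) := by
    push_cast
    refine (mul_le_mul hUle hUle (Nat.cast_nonneg U) (by positivity)).trans (le_of_eq ?_)
    rw [← Real.rpow_add (by linarith)]
    norm_num
  have hUUN : U * U ≤ N := by
    have := hUU.trans (Real.rpow_le_self_of_one_le hN1 (by norm_num))
    exact_mod_cast this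
  have hNU : (N : ℝ) / √(U : ℝ) ≤ 2 * (N : ℝ) ^ (4 / 5 : ℝ) := by
    rw [div_le_iff₀ (Real.sqrt_pos.2 (Nat.cast_pos.2 hU1))]
    have h1 : (N : ℝ) ^ (1 / 5 : ℝ) ≤ 2 * √(U : ℝ) := by
      refine le_trans (le_of_eq ?_) ((Real.sqrt_le_sqrt hUge).trans ?_)
      · rw [Real.sqrt_eq_rpow, ← Real.rpow_mul (by linarith)]
        norm_num
      · rw [Real.sqrt_mul two_pos.le]
        refine mul_le_mul_of_nonneg_right ?_ (Real.sqrt_nonneg _)
        rw [Real.sqrt_le_left two_pos.le]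
        norm_num
    calc (N : ℝ) = (N : ℝ) ^ (4 / 5 : ℝ) * (N : ℝ) ^ (1 / 5 : ℝ) := by
          rw [← Real.rpow_add (by linarith)]
          norm_num
      _ ≤ (N : ℝ) ^ (4 / 5 : ℝ) * (2 * √(U : ℝ)) := mul_le_mul_of_nonneg_left h1 (by positivity)
      _ = _ := by ring
  have h89 : (N : ℝ) ^ (4 / 5 : ℝ) ≤ (N : ℝ) ^ (9 / 10 : ℝ) :=
    Real.rpow_le_rpow_of_exponent_le hN1 (by norm_num)
  have hUT : (U : ℝ) ≤ T := by
    refine (hUle.trans (Real.rpow_le_rpow_of_exponent_le hN1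
      (show (2 / 5 : ℝ) ≤ 9 / 10 by norm_num))).trans ?_
    rw [hT]
    linarith [Real.sqrt_nonneg ((N : ℝ) * q),
      div_nonneg (Nat.cast_nonneg (α := ℝ) N) (Real.sqrt_nonneg (q : ℝ))]
  have p2 : ‖twist α (lowPart U moebiusR * lowPart U moebiusR * oneR) N‖ ≤ 32 * T * L ^ 4 := by
    refine (norm_low_low_le ha hα hqN hUUN).trans (Real.sqrt_le_iff.2 ⟨by positivity, ?_⟩)
    obtain ⟨u, hu⟩ : ∃ u, u = (N : ℝ) / √(q : ℝ) := ⟨_, rfl⟩
    obtain ⟨v, hv⟩ : ∃ v, v = (N : ℝ) ^ (9 / 10 : ℝ) := ⟨_, rfl⟩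
    obtain ⟨w, hw⟩ : ∃ w, w = √((N : ℝ) * q) := ⟨_, rfl⟩
    rw [← hu, ← hv, ← hw] at hT
    have s1 : u ^ 2 = N * (N / q) := by rw [hu, div_pow, Real.sq_sqrt hq0.le]; ring
    have s2 : N * (N : ℝ) ^ (4 / 5 : ℝ) = v ^ 2 := by
      rw [hv, ← Real.rpow_natCast, ← Real.rpow_mul (by linarith)]
      nth_rewrite 1 [← Real.rpow_one (N : ℝ)]
      rw [← Real.rpow_add (by linarith)]
      norm_num
    have s3 : w ^ 2 = N * q := hw ▸ Real.sq_sqrt (by positivity)
    have hu0 : 0 ≤ u := hu ▸ by positivity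
    have hv0 : 0 ≤ v := hv ▸ by positivity
    have hw0 : 0 ≤ w := hw ▸ Real.sqrt_nonneg _
    rw [← hL]
    calc 48 * L ^ 5 * N * (2 * ((U * U : ℕ) : ℝ) + 4 * q + 20 * (N : ℝ) / q)
        ≤ 48 * L ^ 5 * N * (2 * (N : ℝ) ^ (4 / 5 : ℝ) + 4 * q + 20 * (N : ℝ) / q) := by gcongr
      _ = 48 * L ^ 5 * (2 * (N * (N : ℝ) ^ (4 / 5 : ℝ)) + 4 * (N * q) + 20 * (N * (N / q))) := by
          ring
      _ ≤ 48 * L ^ 5 * (20 * T ^ 2) := by
          rw [s2, ← s3, ← s1, hT]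
          gcongr
          nlinarith
      _ ≤ 1024 * L ^ 8 * T ^ 2 := by
          rw [show 48 * L ^ 5 * (20 * T ^ 2) = 960 * L ^ 5 * T ^ 2 by ring]
          gcongr
          · norm_num
          · norm_num
      _ = _ := by ring
  have p3 : ‖twist α (highPart U moebiusR * tailCoeff U) N‖ ≤ 66 * L ^ 4 * (2 * T) := by
    refine (norm_typeTwo_le ha hα hqN hU1 (highPart U moebiusR)
      (fun m hm => by rw [highPart_apply, if_pos hm]) fun M hUM _ => ?_).trans ?_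
    · refine (sum_le_card_nsmul _ _ 1 fun m _ => ?_).trans ?_
      · rw [highPart_apply]
        split_ifs
        · simp
        · exact (sq_le_one_iff_abs_le_one _).2 (abs_moebiusR_le m)
      · rw [Nat.card_Ioc, nsmul_eq_mul, mul_one, show 2 * M - M = M by omega]
        have := mul_le_mul_of_nonneg_right (one_le_logOne N) (show (0 : ℝ) ≤ 12 * M by positivity)
        linarith [(Nat.cast_nonneg M : (0 : ℝ) ≤ M)]
    · rw [← hL]
      refine mul_le_mul_of_nonneg_left ?_ (by positivity)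
      rw [mainTerm, hT]
      linarith [Real.sqrt_nonneg ((N : ℝ) * q),
        div_nonneg (Nat.cast_nonneg (α := ℝ) N) (Real.sqrt_nonneg (q : ℝ))]
  rw [vaughan_moebius U, twist_add, twist_sub, twist_add]
  refine (norm_add_le _ _).trans ((add_le_add ((norm_sub_le _ _).trans
    (add_le_add (norm_add_le _ _) le_rfl)) le_rfl).trans ?_)
  rw [show highPart U moebiusR * oneR = tailCoeff U from rfl]
  have p0 : ‖twist α (lowPart U moebiusR) N‖ ≤ T := (norm_twist_low_moebius_le α U N).trans hUT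
  refine (add_le_add (add_le_add (add_le_add p0 p0) p2) p3).trans ?_
  have h0 : T * 1 ≤ T * L ^ 4 := mul_le_mul_of_nonneg_left (one_le_pow₀ hL1) hT0
  linarith

end FA.DavenportMoebius
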