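import Fermat.Agent.DavenportMoebius.Classes
import Fermat.Agent.DavenportMoebius.Minor
import Fermat.Agent.ThreePrimes.Major

/-!
# Davenport's theorem

`∑_{n ≤ N} μ n e (α n) = O (N / (log N) ^ A)` uniformly in the real `α`, and the same for `λ`.
-/

set_option autoImplicit false

noncomputable section

namespace FA.DavenportMoebius

open Finset Filter Complex
open FA.ThreePrimes (eAdd norm_eAdd eAdd_mod eAdd_add moebiusR twist logOne norm_sum_mul_eAdd_le)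
open scoped Real ArithmeticFunction.Moebius

/-- **The major arcs.** -/
theorem exists_major_le (A B : ℕ) : ∃ C, 0 ≤ C ∧ ∀ᶠ N : ℕ in atTop,
    ∀ (q : ℕ) (a : ℤ) (β : ℝ), 0 < q → (q : ℝ) ≤ Real.log N ^ B →
      |β| * N ≤ Real.log N ^ B →
        ‖∑ n ∈ Icc 1 N, (μ n : ℂ) * eAdd (n * ((a : ℝ) / q + β))‖ ≤ C * N / Real.log N ^ A := by
  obtain ⟨C, hC, h⟩ := exists_class_le (A + 2 * B) (B + 1)
  obtain ⟨N₀, hN₀⟩ := eventually_atTop.1 h
  refine ⟨9 * (1 + C * 2 ^ (A + 2 * B)), by positivity, ?_⟩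
  filter_upwards [eventually_ge_atTop (max 4 (N₀ * N₀)),
    BombieriVinogradov.eventually_log_pow_le (A + B) (show (0 : ℝ) < 1 / 2 by norm_num),
    BombieriVinogradov.eventually_log_ge (2 * 2 ^ B + 2)] with N hN hlog hlarge q a β hq hqL hβ
  obtain ⟨L, hL⟩ : ∃ L, L = Real.log N := ⟨_, rfl⟩
  rw [← hL] at hlog hlarge hqL hβ ⊢
  rw [← Real.sqrt_eq_rpow] at hlog
  have hN4 : 4 ≤ N := le_of_max_le_left hN
  have hN0 : (0 : ℝ) < N := Nat.cast_pos.2 (by omega)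
  have h2B : (1 : ℝ) ≤ 2 ^ B := one_le_pow₀ one_le_two
  have hL1 : 1 ≤ L := by linarith
  obtain ⟨E, hE⟩ : ∃ E, E = (1 + C * 2 ^ (A + 2 * B)) * N / L ^ (A + B) := ⟨_, rfl⟩
  have hC0 : 0 ≤ C * 2 ^ (A + 2 * B) := by positivity
  have hpart : ∀ j ≤ N,
      ‖∑ n ∈ Ioc 0 j, (μ n : ℂ) * eAdd ((a : ℝ) * n / q)‖ ≤ E := by
    intro j hj
    rcases lt_or_ge (j : ℝ) √(N : ℝ) with hjs | hjs
    · refine (norm_sum_le _ _).trans ((sum_le_card_nsmul _ _ 1 fun n _ => ?_).trans ?_)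
      · rw [norm_mul, norm_eAdd, mul_one, Complex.norm_intCast]
        exact_mod_cast ArithmeticFunction.abs_moebius_le_one
      · rw [Nat.card_Ioc, Nat.sub_zero, nsmul_eq_mul, mul_one, hE, le_div_iff₀ (by positivity)]
        refine le_trans (mul_le_mul hjs.le hlog (by positivity) (Real.sqrt_nonneg _)) ?_
        rw [Real.mul_self_sqrt hN0.le]
        exact le_mul_of_one_le_left hN0.le (by linarith)
    have hjN : (j : ℝ) ≤ N := Nat.cast_le.2 hj
    have hs0 : 0 < √(N : ℝ) := Real.sqrt_pos.2 hN0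
    have hlj : L ≤ 2 * Real.log j := by
      have := Real.log_le_log hs0 hjs
      rw [Real.log_sqrt hN0.le, ← hL] at this
      linarith
    have hjN₀ : N₀ ≤ j := by
      have h1 : (N₀ : ℝ) ≤ √(N : ℝ) := Real.le_sqrt_of_sq_le (by
        rw [sq]; exact_mod_cast le_of_max_le_right hN)
      exact Nat.cast_le.1 (h1.trans hjs)
    have hqj : (q : ℝ) ≤ Real.log j ^ (B + 1) := by
      refine hqL.trans ((pow_le_pow_left₀ (by linarith) hlj B).trans ?_)
      rw [mul_pow, pow_succ, mul_comm]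
      exact mul_le_mul_of_nonneg_left (by linarith) (pow_nonneg (by linarith) B)
    rw [← sum_fiberwise_of_maps_to (g := fun n => n % q) (t := range q)
      fun n _ => mem_range.2 (Nat.mod_lt n hq)]
    refine (norm_sum_le _ _).trans ((sum_le_card_nsmul _ _
      (C * 2 ^ (A + 2 * B) * N / L ^ (A + 2 * B)) fun r hr => ?_).trans ?_)
    · rw [mem_range] at hr
      have e : ∑ n ∈ (Ioc 0 j).filter (fun n => n % q = r), (μ n : ℂ) * eAdd ((a : ℝ) * n / q) =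
          ((∑ n ∈ (Icc 1 j).filter (fun n : ℕ => n ≡ r [MOD q]), (μ n : ℝ) : ℝ) : ℂ) *
            eAdd ((a : ℝ) * r / q) := by
        rw [Complex.ofReal_sum, sum_mul]
        refine sum_congr ?_ fun n hn => ?_
        · ext n
          simp only [mem_filter, mem_Ioc, mem_Icc, Nat.ModEq, Nat.mod_eq_of_lt hr]
          rfl
        · rw [mem_filter, Nat.ModEq, Nat.mod_eq_of_lt hr] at hn
          rw [eAdd_mod hq a n, hn.2, Complex.ofReal_intCast]
      rw [e, norm_mul, norm_eAdd, mul_one, Complex.norm_real, Real.norm_eq_abs]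
      refine (hN₀ j hjN₀ q r hq hqj).trans ?_
      rw [show C * 2 ^ (A + 2 * B) * (N : ℝ) / L ^ (A + 2 * B) = C * N / (L / 2) ^ (A + 2 * B) by
        rw [div_pow]; field_simp]
      exact div_le_div₀ (by positivity) (mul_le_mul_of_nonneg_left hjN hC)
        (pow_pos (by linarith) _) (pow_le_pow_left₀ (by linarith) (by linarith) _)
    · rw [card_range, nsmul_eq_mul, hE]
      refine (mul_le_mul_of_nonneg_right hqL (by positivity)).trans ?_
      rw [show L ^ B * (C * 2 ^ (A + 2 * B) * N / L ^ (A + 2 * B)) =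
        C * 2 ^ (A + 2 * B) * N / L ^ (A + B) by
          rw [show A + 2 * B = (A + B) + B by ring, pow_add L (A + B) B]; field_simp]
      gcongr
      linarith
  have e : ∑ n ∈ Icc 1 N, (μ n : ℂ) * eAdd (n * ((a : ℝ) / q + β)) =
      ∑ n ∈ Ioc 0 N, ((μ n : ℂ) * eAdd ((a : ℝ) * n / q)) * eAdd (n * β) := by
    rw [show Icc 1 N = Ioc 0 N from rfl]
    refine sum_congr rfl fun n _ => ?_
    rw [mul_add, eAdd_add, show (n : ℝ) * ((a : ℝ) / q) = (a : ℝ) * n / q by ring, mul_assoc]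
  rw [e]
  refine (norm_sum_mul_eAdd_le _ β N hpart).trans ?_
  have h2 : 1 + 2 * π * |β| * N ≤ 9 * L ^ B := by
    have := mul_le_mul_of_nonneg_left hβ (show (0 : ℝ) ≤ 2 * π by positivity)
    have := mul_le_mul_of_nonneg_right Real.pi_le_four (show (0 : ℝ) ≤ L ^ B by positivity)
    linarith [one_le_pow₀ hL1 (n := B)]
  refine (mul_le_mul_of_nonneg_left h2 (hE ▸ by positivity)).trans (le_of_eq ?_)
  rw [hE]
  field_simp
  ring

/-- **Davenport's theorem.** -/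
theorem exists_davenport (A : ℕ) : ∃ C, 0 ≤ C ∧ ∀ᶠ N : ℕ in atTop, ∀ α : ℝ,
    ‖∑ n ∈ Icc 1 N, (μ n : ℂ) * eAdd (n * α)‖ ≤ C * N / Real.log N ^ A := by
  obtain ⟨b, hb⟩ : ∃ b, b = A + 4 := ⟨_, rfl⟩
  obtain ⟨C, hC, hmaj⟩ := exists_major_le A (2 * b)
  refine ⟨C + 400 * 3 * 16, by positivity, ?_⟩
  filter_upwards [hmaj, eventually_ge_atTop 3,
    BombieriVinogradov.eventually_log_pow_le (2 * b) (show (0 : ℝ) < 1 / 10 by norm_num)]
    with N hN hN3 hlog α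
  obtain ⟨l, hlr⟩ : ∃ l, l = Real.log N := ⟨_, rfl⟩
  rw [← hlr] at hN hlog ⊢
  have hN0 : (0 : ℝ) < N := Nat.cast_pos.2 (by omega)
  have hN1 : (1 : ℝ) ≤ N := Nat.one_le_cast.2 (by omega)
  have hl : 1 ≤ l := by
    rw [hlr, Real.le_log_iff_exp_le hN0]
    linarith [Real.exp_one_lt_three, (Nat.ofNat_le_cast (α := ℝ)).2 hN3]
  obtain ⟨R, hR⟩ : ∃ R, R = l ^ (2 * b) := ⟨_, rfl⟩
  rw [← hR] at hlog hN
  have hR1 : 1 ≤ R := hR ▸ one_le_pow₀ hl
  have hRN : R ≤ N := hlog.trans (Real.rpow_le_self_of_one_le hN1 (by norm_num))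
  obtain ⟨n, hn⟩ : ∃ n, n = ⌊(N : ℝ) / R⌋₊ := ⟨_, rfl⟩
  have hn0 : 0 < n := hn ▸ Nat.floor_pos.2 ((one_le_div (by linarith)).2 hRN)
  obtain ⟨ρ, hρ, hρn⟩ := Real.exists_rat_abs_sub_le_and_den_le α hn0
  obtain ⟨q, hq⟩ : ∃ q, q = ρ.den := ⟨_, rfl⟩
  have : NeZero q := ⟨hq ▸ ρ.den_ne_zero⟩
  have hq0 : (0 : ℝ) < q := Nat.cast_pos.2 (NeZero.pos q)
  have hρv : (ρ : ℝ) = (ρ.num : ℝ) / q := by rw [hq, Rat.cast_def]
  rw [hρv, ← hq] at hρ
  have hunit : IsUnit (ρ.num : ZMod q) := by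
    rw [ZMod.coe_int_isUnit_iff_isCoprime, isCoprime_comm, Int.isCoprime_iff_nat_coprime, hq]
    simpa using ρ.reduced
  have hn1 : (N : ℝ) / R < (n : ℝ) + 1 := hn ▸ Nat.lt_floor_add_one _
  rcases le_or_gt (q : ℝ) R with hqR | hqR
  · have h1 : |α - (ρ.num : ℝ) / q| * N ≤ R := by
      refine (mul_le_mul_of_nonneg_right hρ hN0.le).trans ?_
      rw [div_mul_eq_mul_div, one_mul, div_le_iff₀ (by positivity)]
      rw [div_lt_iff₀ (by linarith)] at hn1
      have hq1 : (1 : ℝ) ≤ q := by exact_mod_cast NeZero.pos q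
      have := mul_le_mul_of_nonneg_left hq1 (show 0 ≤ R * ((n : ℝ) + 1) by positivity)
      linarith
    have h2 := hN q ρ.num (α - (ρ.num : ℝ) / q) (NeZero.pos q) hqR h1
    rw [add_sub_cancel] at h2
    refine h2.trans ?_
    gcongr
    linarith
  have hqn : (q : ℝ) ≤ (n : ℝ) + 1 := by
    have : (q : ℝ) ≤ n := Nat.cast_le.2 (hq ▸ hρn)
    linarith
  have hα : |α - (ρ.num : ℝ) / q| ≤ 1 / (q : ℝ) ^ 2 := hρ.trans (one_div_le_one_div_of_le
    (by positivity) (by rw [sq]; exact mul_le_mul_of_nonneg_right hqn hq0.le))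
  have e : ∑ n ∈ Icc 1 N, (μ n : ℂ) * eAdd (n * α) = twist α moebiusR N := by
    rw [twist, show Icc 1 N = Ioc 0 N from rfl]
    refine sum_congr rfl fun m _ => ?_
    rw [moebiusR, ArithmeticFunction.intCoe_apply, Complex.ofReal_intCast]
  rw [e]
  refine (norm_moebius_twist_le hunit hα).trans ?_
  have hsR : √R = l ^ b := by rw [hR, pow_mul', Real.sqrt_sq (by positivity)]
  have t1 : (N : ℝ) / √(q : ℝ) ≤ N / l ^ b :=
    div_le_div_of_nonneg_left hN0.le (by positivity) (hsR ▸ Real.sqrt_le_sqrt hqR.le)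
  have t2 : √((N : ℝ) * q) ≤ N / l ^ b := by
    have h1 : (q : ℝ) ≤ N / R :=
      (Nat.cast_le.2 (hq ▸ hρn)).trans (hn ▸ Nat.floor_le (by positivity))
    refine (Real.sqrt_le_sqrt (mul_le_mul_of_nonneg_left h1 hN0.le)).trans ?_
    rw [mul_div_assoc', Real.sqrt_div (by positivity), Real.sqrt_mul_self hN0.le, hsR]
  have t3 : (N : ℝ) ^ (9 / 10 : ℝ) ≤ N / l ^ b := by
    rw [le_div_iff₀ (by positivity)]
    calc (N : ℝ) ^ (9 / 10 : ℝ) * l ^ b ≤ (N : ℝ) ^ (9 / 10 : ℝ) * (N : ℝ) ^ (1 / 10 : ℝ) := by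
          refine mul_le_mul_of_nonneg_left (le_trans ?_ hlog) (by positivity)
          rw [hR]
          exact pow_le_pow_right₀ hl (by omega)
      _ = _ := by rw [← Real.rpow_add hN0]; norm_num
  have t4 : logOne N ^ 4 ≤ 16 * l ^ 4 := by
    refine (pow_le_pow_left₀ (by linarith [ThreePrimes.one_le_logOne N]) (show logOne N ≤ 2 * l by
      rw [logOne, ← hlr]; linarith) 4).trans (le_of_eq (by ring))
  have h5 := mul_le_mul (mul_le_mul_of_nonneg_left
    (show (N : ℝ) / √(q : ℝ) + (N : ℝ) ^ (9 / 10 : ℝ) + √((N : ℝ) * q) ≤ 3 * ((N : ℝ) / l ^ b) by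
      linarith) (show (0 : ℝ) ≤ 400 by norm_num)) t4
      (pow_nonneg (by linarith [ThreePrimes.one_le_logOne N]) 4) (by positivity)
  refine h5.trans ?_
  rw [show 400 * (3 * ((N : ℝ) / l ^ b)) * (16 * l ^ 4) = 400 * 3 * 16 * N / l ^ A by
    rw [hb, pow_add]; field_simp]
  gcongr
  linarith

/-- **Davenport's theorem for `λ`.** -/
theorem exists_davenport_liouville (A : ℕ) : ∃ C, 0 ≤ C ∧ ∀ᶠ N : ℕ in atTop, ∀ α : ℝ,
    ‖∑ n ∈ Icc 1 N, (ArithmeticFunction.liouville n : ℂ) * eAdd (n * α)‖ ≤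
      C * N / Real.log N ^ A := by
  obtain ⟨C, hC, hM⟩ := exists_davenport A
  obtain ⟨N₀, hN₀⟩ := eventually_atTop.1 hM
  obtain ⟨C', hC', h⟩ := SieveConstant.exists_sum_sq_le A hC (N₀ : ℝ)
  refine ⟨C', hC', h.mono fun N hN α => ?_⟩
  rw [SieveConstant.sum_liouville_mul_eq]
  refine (norm_sum_le _ _).trans (hN (fun d k =>
    ‖∑ m ∈ Icc 1 k, (μ m : ℂ) * eAdd ((d ^ 2 * m : ℕ) * α)‖) (fun d k => ?_) fun d k hk => ?_)
  · refine (norm_sum_le _ _).trans ((sum_le_card_nsmul _ _ 1 fun m _ => ?_).trans (by simp))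
    rw [norm_mul, norm_eAdd, mul_one, Complex.norm_intCast]
    exact_mod_cast ArithmeticFunction.abs_moebius_le_one
  · refine le_of_eq_of_le (congrArg _ (sum_congr rfl fun m _ => ?_))
      (hN₀ k (Nat.cast_le.1 hk) (((d ^ 2 : ℕ) : ℝ) * α))
    push_cast
    ring_nf

end FA.DavenportMoebius
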