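import Fermat.Agent.SiegelWalfisz.Twisted
import Fermat.Agent.SieveConstant.MobiusSum

/-!
# `1 / L (s, χ)` in the region free of zeros

`1 / L (s, χ) = O (q ² (log q (|t| + 100)) ^ 12)` in the region of Siegel and Walfisz for every
`χ`, the principal one included, and so the smoothed sums of `χ n μ n` are `O (x / (log x) ^ A)`
for `q ≤ (log x) ^ B`.
-/

set_option autoImplicit false

noncomputable section

namespace FA.DavenportMoebius

open Finset Filter Complex DirichletCharacter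
open FA.SiegelWalfisz (lg gauge smoothSum)
open FA.SieveConstant (zetaInv)
open scoped ArithmeticFunction.Moebius

variable {q : ℕ} [NeZero q]

/-- The lower bound in the region. -/
theorem exists_LFunction_ge (ε : ℝ) (hε : 0 < ε) : ∃ a κ, 0 < a ∧ a ≤ 1 ∧ 0 < κ ∧
    ∀ (q : ℕ) [NeZero q] (χ : DirichletCharacter ℂ q), χ ≠ 1 → ∀ s : ℂ,
    1 - a * (q : ℝ) ^ (-ε) / lg q s.im ^ 12 ≤ s.re → s.re ≤ 2 →
      κ * (q : ℝ) ^ (-ε) / lg q s.im ^ 12 ≤ ‖LFunction χ s‖ := by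
  obtain ⟨b, hb, hb1, hlow⟩ := SiegelWalfisz.exists_lower_bound
  obtain ⟨c, C, hc, hc1, hC, hreal⟩ := SiegelWalfisz.exists_lower_bound_real ε hε
  refine ⟨b * c, b * c * min C 1, by positivity, mul_le_one₀ hb1 hc.le hc1,
    mul_pos (by positivity) (lt_min hC one_pos), fun q _ χ hχ s hs hs2 => ?_⟩
  obtain ⟨L, hL⟩ : ∃ L, L = lg q s.im := ⟨_, rfl⟩
  rw [← hL] at hs ⊢
  have hL4 : 4 ≤ L := hL ▸ SiegelWalfisz.four_le_lg q _
  have hq0 : (0 : ℝ) < q := Nat.cast_pos.2 (NeZero.pos q)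
  obtain ⟨p, hp⟩ : ∃ p, p = (q : ℝ) ^ (-ε) := ⟨_, rfl⟩
  have hp0 : 0 < p := hp ▸ Real.rpow_pos_of_pos hq0 _
  have hp1 : p ≤ 1 := hp ▸
    Real.rpow_le_one_of_one_le_of_nonpos (by exact_mod_cast NeZero.one_le) (by linarith)
  rw [← hp] at hs ⊢
  obtain ⟨τ, hτ⟩ : ∃ τ, τ = c * p / L ^ 2 := ⟨_, rfl⟩
  have hτ0 : 0 < τ := by rw [hτ]; positivity
  have hτ1 : τ ≤ 1 := by
    rw [hτ, div_le_one (by positivity)]
    exact (mul_le_one₀ hc1 hp0.le hp1).trans (one_le_pow₀ (by linarith))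
  obtain ⟨η, hη⟩ : ∃ η, η = b * c * p / L ^ 12 := ⟨_, rfl⟩
  have hη0 : 0 < η := by rw [hη]; positivity
  rw [← hη] at hs
  rw [show b * c * min C 1 * p / L ^ 12 = min C 1 * η by rw [hη]; ring]
  rw [← Complex.re_add_im s]
  by_cases hcase : χ ^ 2 = 1 ∧ |s.im| ≤ τ
  · have hτη : η ≤ τ := by
      rw [hη, hτ]
      refine div_le_div₀ (by positivity) ?_ (by positivity)
        (pow_le_pow_right₀ (by linarith) (by norm_num))
      exact mul_le_mul_of_nonneg_right (mul_le_of_le_one_left hc.le hb1) hp0.le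
    refine le_trans ?_ (hreal q χ hχ hcase.1 s.re s.im τ (by rw [hτ, hp, hL]) hcase.2
      (by linarith) hs2)
    exact mul_le_mul (min_le_left _ _) hτη hη0.le hC.le
  · have ht : χ ^ 2 = 1 → τ ≤ |s.im| := fun h => (not_le.1 fun h' => hcase ⟨h, h'⟩).le
    have hlb := hlow q χ hχ s.re s.im τ η hτ0 hτ1 ht hη0 (le_of_eq ?_) (by linarith) hs2
    · refine le_trans ?_ hlb
      rw [← hL]
      have hD := SiegelWalfisz.one_le_derivBoundConst
      refine (mul_le_of_le_one_left hη0.le (min_le_right _ _)).trans ?_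
      rw [show 2 * η * SiegelWalfisz.derivBoundConst * L ^ 2 =
        η * (2 * SiegelWalfisz.derivBoundConst * L ^ 2) by ring]
      exact le_mul_of_one_le_right hη0.le (one_le_mul_of_one_le_of_one_le (by linarith)
        (one_le_pow₀ (by linarith)))
    · rw [hη, hτ, ← hL]
      field_simp

/-- `∏_{p ∣ q} (1 - p ^ (-s))`. -/
def localFactor (q : ℕ) (s : ℂ) : ℂ := ∏ p ∈ q.primeFactors, (1 - (p : ℂ) ^ (-s))

theorem localFactor_bound {s : ℂ} (hs : 1 / 2 ≤ s.re) :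
    localFactor q s ≠ 0 ∧ ‖(localFactor q s)⁻¹‖ ≤ (q : ℝ) ^ 2 := by
  have h : ∀ p ∈ q.primeFactors, (1 / 4 : ℝ) ≤ ‖1 - (p : ℂ) ^ (-s)‖ := by
    intro p hp
    have hp2 : (2 : ℝ) ≤ p := Nat.ofNat_le_cast.2 (Nat.prime_of_mem_primeFactors hp).two_le
    have h1 : ‖(p : ℂ) ^ (-s)‖ ≤ 3 / 4 := by
      rw [Complex.norm_natCast_cpow_of_pos (Nat.prime_of_mem_primeFactors hp).pos, Complex.neg_re]
      refine (Real.rpow_le_rpow_of_nonpos two_pos hp2 (by linarith)).trans ?_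
      refine (Real.rpow_le_rpow_of_exponent_le one_le_two (show -s.re ≤ -(1 / 2 : ℝ) by
        linarith)).trans ?_
      rw [Real.rpow_neg two_pos.le, ← Real.sqrt_eq_rpow, inv_le_comm₀ (by positivity) (by norm_num)]
      exact Real.le_sqrt_of_sq_le (by norm_num)
    have h2 := norm_sub_norm_le (1 : ℂ) ((p : ℂ) ^ (-s))
    rw [norm_one] at h2
    linarith
  refine ⟨prod_ne_zero_iff.2 fun p hp => norm_pos_iff.1 ((by norm_num : (0 : ℝ) < 1 / 4).trans_le
    (h p hp)), ?_⟩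
  rw [localFactor, norm_inv, norm_prod, ← prod_inv_distrib]
  refine (prod_le_prod (fun p _ => inv_nonneg.2 (norm_nonneg _))
    (g := fun p : ℕ => (p : ℝ) ^ 2) fun p hp => ?_).trans ?_
  · refine (inv_anti₀ (by norm_num) (h p hp)).trans ?_
    have hp2 : (2 : ℝ) ≤ p := Nat.ofNat_le_cast.2 (Nat.prime_of_mem_primeFactors hp).two_le
    nlinarith
  · rw [prod_pow]
    refine pow_le_pow_left₀ (by positivity) ?_ 2
    rw [← Nat.cast_prod]
    exact Nat.cast_le.2 (Nat.le_of_dvd (NeZero.pos q) (Nat.prod_primeFactors_dvd q))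

omit [NeZero q] in
theorem differentiableAt_localFactor (s : ℂ) : DifferentiableAt ℂ (localFactor q) s := by
  unfold localFactor
  refine DifferentiableAt.fun_finsetProd fun p hp => ?_
  exact (differentiableAt_id.neg.const_cpow
    (Or.inl (Nat.cast_ne_zero.2 (Nat.prime_of_mem_primeFactors hp).ne_zero))).const_sub 1

/-- `1 / L (s, χ)`, continued. -/
def charInv (χ : DirichletCharacter ℂ q) (s : ℂ) : ℂ :=
  if χ = 1 then zetaInv s * (localFactor q s)⁻¹ else (LFunction χ s)⁻¹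

theorem lseries_char_moebius {χ : DirichletCharacter ℂ q} {s : ℂ} (hs : 1 < s.re) :
    LSeries (fun n => χ n * (μ n : ℂ)) s = charInv χ s := by
  have h := LSeries.mul_mu_eq_one χ hs
  rw [← LFunction_eq_LSeries χ hs] at h
  have h' : LSeries (fun n => χ n * (μ n : ℂ)) s = (LFunction χ s)⁻¹ := eq_inv_of_mul_eq_one_right h
  rw [h', charInv]
  split_ifs with h1
  · have hs1 : s ≠ 1 := fun e => by simp [e] at hs
    subst h1
    show (LFunctionTrivChar q s)⁻¹ = _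
    rw [LFunctionTrivChar_eq_mul_riemannZeta hs1, mul_inv, SieveConstant.zetaInv_eq hs1,
      localFactor, mul_comm]
  · rfl

/-- `1 / L` in the region. -/
theorem exists_charInv_region (ε : ℝ) (hε : 0 < ε) (hε2 : ε ≤ 2) : ∃ a K, 0 < a ∧ a ≤ 1 ∧ 0 ≤ K ∧
    ∀ (q : ℕ) [NeZero q] (χ : DirichletCharacter ℂ q) (s : ℂ),
    1 - a * (q : ℝ) ^ (-ε) / lg q s.im ^ 12 ≤ s.re → s.re ≤ 2 →
      DifferentiableAt ℂ (charInv χ) s ∧ ‖charInv χ s‖ ≤ K * (q : ℝ) ^ 2 * lg q s.im ^ 12 := by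
  obtain ⟨a₁, κ, ha₁, ha₁1, hκ, hL⟩ := exists_LFunction_ge ε hε
  obtain ⟨a₂, C, ha₂, -, hC, hζ⟩ := SieveConstant.exists_zetaInv_le
  refine ⟨min a₁ a₂, 1 / κ + C, lt_min ha₁ ha₂, (min_le_left _ _).trans ha₁1, by positivity,
    fun q _ χ s hs hs2 => ?_⟩
  obtain ⟨L, hLdef⟩ : ∃ L, L = lg q s.im := ⟨_, rfl⟩
  rw [← hLdef] at hs ⊢
  have hL4 : 4 ≤ L := hLdef ▸ SiegelWalfisz.four_le_lg q _
  have hq0 : (0 : ℝ) < q := Nat.cast_pos.2 (NeZero.pos q)
  have hq1 : (1 : ℝ) ≤ q := by exact_mod_cast NeZero.one_le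
  have hp0 : 0 < (q : ℝ) ^ (-ε) := Real.rpow_pos_of_pos hq0 _
  have hp1 : (q : ℝ) ^ (-ε) ≤ 1 := Real.rpow_le_one_of_one_le_of_nonpos hq1 (by linarith)
  have hmono : ∀ c, min a₁ a₂ ≤ c → 1 - c * (q : ℝ) ^ (-ε) / L ^ 12 ≤ s.re := fun c hc =>
    le_trans (sub_le_sub_left (div_le_div_of_nonneg_right
      (mul_le_mul_of_nonneg_right hc hp0.le) (by positivity)) 1) hs
  by_cases hχ : χ = 1
  · have e : charInv χ = fun s => zetaInv s * (localFactor q s)⁻¹ := by
      funext t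
      rw [charInv, if_pos hχ]
    have hreg : 1 - a₂ / ZeroFree.ell s.im ^ 9 ≤ s.re := by
      refine le_trans (sub_le_sub_left ?_ 1) (hmono a₂ (min_le_right _ _))
      refine (div_le_div_of_nonneg_right (mul_le_of_le_one_right ha₂.le hp1) (by positivity)).trans
        (div_le_div_of_nonneg_left ha₂.le (pow_pos (ZeroFree.ell_pos _) 9) ?_)
      refine (pow_le_pow_left₀ (ZeroFree.ell_pos _).le (hLdef ▸ SiegelWalfisz.ell_le_lg q _)
        9).trans ?_
      exact pow_le_pow_right₀ (by linarith) (by norm_num)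
    have hhalf : 1 / 2 ≤ s.re := by
      have h1 : min a₁ a₂ * (q : ℝ) ^ (-ε) / L ^ 12 ≤ 1 / 2 := by
        rw [div_le_iff₀ (by positivity)]
        have := pow_le_pow_left₀ (by norm_num) hL4 12
        nlinarith [mul_le_one₀ ((min_le_left a₁ a₂).trans ha₁1) hp0.le hp1]
      linarith
    obtain ⟨hd, hn⟩ := hζ s hreg hs2
    obtain ⟨hne, hF⟩ := localFactor_bound (q := q) hhalf
    rw [e]
    refine ⟨hd.mul ((differentiableAt_localFactor s).inv hne), ?_⟩
    rw [norm_mul]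
    refine (mul_le_mul hn hF (norm_nonneg _)
      (mul_nonneg hC (pow_nonneg (ZeroFree.ell_pos _).le 9))).trans ?_
    rw [mul_right_comm]
    refine mul_le_mul (mul_le_mul_of_nonneg_right (le_add_of_nonneg_left (by positivity))
      (by positivity)) ?_ (pow_nonneg (ZeroFree.ell_pos _).le 9) (by positivity)
    refine (pow_le_pow_left₀ (ZeroFree.ell_pos _).le (hLdef ▸ SiegelWalfisz.ell_le_lg q _)
        9).trans ?_
    exact pow_le_pow_right₀ (by linarith) (by norm_num)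
  · have e : charInv χ = fun s => (LFunction χ s)⁻¹ := by
      funext t
      rw [charInv, if_neg hχ]
    have h := hL q χ hχ s (hLdef ▸ hmono a₁ (min_le_left _ _)) hs2
    rw [← hLdef] at h
    have hpos : 0 < κ * (q : ℝ) ^ (-ε) / L ^ 12 := by positivity
    rw [e]
    refine ⟨((differentiable_LFunction hχ) s).inv (norm_pos_iff.1 (hpos.trans_le h)), ?_⟩
    rw [norm_inv]
    refine (inv_anti₀ hpos h).trans ?_
    rw [inv_div, Real.rpow_neg hq0.le, ← div_eq_mul_inv, div_div_eq_mul_div]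
    rw [add_mul, add_mul]
    refine le_add_of_le_of_nonneg ?_ (by positivity)
    have hqε : (q : ℝ) ^ ε ≤ (q : ℝ) ^ 2 := by
      rw [← Real.rpow_two]
      exact Real.rpow_le_rpow_of_exponent_le hq1 hε2
    rw [show 1 / κ * (q : ℝ) ^ 2 * L ^ 12 = L ^ 12 * (q : ℝ) ^ 2 / κ by ring]
    gcongr

/-- **The smoothed sums.** -/
theorem exists_smooth_char_le (A B : ℕ) : ∃ C, 0 ≤ C ∧ ∀ x : ℝ, 3 ≤ x →
    ∀ (q : ℕ) [NeZero q] (χ : DirichletCharacter ℂ q), (q : ℝ) ≤ Real.log x ^ B →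
      ‖smoothSum (fun n => χ n * (μ n : ℂ)) x‖ ≤ C * x / Real.log x ^ A := by
  obtain ⟨B', hB'⟩ : ∃ B' : ℝ, B' = (B : ℝ) + 1 := ⟨_, rfl⟩
  have hB0 : 0 < B' := by rw [hB']; positivity
  obtain ⟨ε, hε⟩ : ∃ ε, ε = 1 / (15 * B') := ⟨_, rfl⟩
  have hε0 : 0 < ε := by rw [hε]; positivity
  have hε2 : ε ≤ 2 := by
    rw [hε, div_le_iff₀ (by positivity), hB']
    linarith [(Nat.cast_nonneg B : (0 : ℝ) ≤ B)]
  obtain ⟨a, B₀, ha, ha1, hB₀, hreg⟩ := exists_charInv_region ε hε0 hε2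
  obtain ⟨K₁, hK₁1, hK₁⟩ := SiegelWalfisz.ell_twelve_le
  obtain ⟨K₂, hK₂, hsmooth⟩ := SiegelWalfisz.exists_norm_smoothSum_le
  obtain ⟨M, hM⟩ : ∃ M, M = 30 * B' + 6 := ⟨_, rfl⟩
  have hM0 : 0 < M := by rw [hM]; positivity
  obtain ⟨c, hc⟩ : ∃ c, c = min (a / (2 * M ^ 12)) (1 / 2) := ⟨_, rfl⟩
  have hc0 : 0 < c := hc ▸ lt_min (by positivity) (by norm_num)
  obtain ⟨K₃, hK₃, habs⟩ := SiegelWalfisz.exists_rpow_mul_exp_le
    ((30 * B + 12 + 15 * A : ℕ) : ℝ) hc0
  refine ⟨K₂ * (B₀ * M ^ 12 * K₁) * 2 * K₃, by positivity, fun x hx q _ χ hq => ?_⟩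
  obtain ⟨hu1, hul, hu15⟩ := SiegelWalfisz.gauge_facts hx
  obtain ⟨u, hu⟩ : ∃ u, u = gauge x := ⟨_, rfl⟩
  rw [← hu] at hu1 hul hu15
  rw [← hu15] at hq ⊢
  have hq1 : (1 : ℝ) ≤ q := by exact_mod_cast NeZero.one_le
  have hqu : (q : ℝ) ^ ε ≤ 2 * u := by
    refine hε ▸ hu ▸ SiegelWalfisz.rpow_gauge_le hB0 hx ?_
    rw [← hu15, hB', Real.rpow_add (by positivity), Real.rpow_natCast, Real.rpow_one]
    have h1 : (1 : ℝ) ≤ u ^ 15 := one_le_pow₀ hu1
    refine hq.trans ((pow_le_pow_left₀ (by positivity) (show u ^ 15 ≤ 2 * u ^ 15 by linarith)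
      B).trans
      (le_mul_of_one_le_right (by positivity) (by linarith)))
  have hlogq : Real.log q ≤ 30 * B' * u := by
    refine (Real.log_le_rpow_div (Nat.cast_nonneg q) hε0).trans ?_
    rw [div_le_iff₀ hε0]
    refine hqu.trans (le_of_eq ?_)
    rw [hε]
    field_simp
    norm_num
  have hgrow : ∀ y, lg q y ^ 12 ≤ M ^ 12 * u ^ 12 * (K₁ * (1 + y ^ 2) ^ (1 / 4 : ℝ)) := by
    intro y
    refine le_trans ?_ (mul_le_mul_of_nonneg_left (hK₁ y) (by positivity))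
    rw [← mul_pow, ← mul_pow]
    refine pow_le_pow_left₀ (SiegelWalfisz.lg_pos q y).le ?_ 12
    have hl := ZeroFree.four_le_ell y
    have h1 : 30 * B' * u * 1 ≤ 30 * B' * u * ZeroFree.ell y :=
      mul_le_mul_of_nonneg_left (by linarith) (by positivity)
    have h2 : 1 * ZeroFree.ell y ≤ 6 * u * ZeroFree.ell y :=
      mul_le_mul_of_nonneg_right (by linarith) (by linarith)
    rw [hM, lg]
    linarith
  obtain ⟨T, hT⟩ : ∃ T, T = Real.exp u := ⟨_, rfl⟩
  have hT1 : 1 ≤ T := hT ▸ Real.one_le_exp (by linarith)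
  have hLT : lg q T ≤ M * u := by
    have hell : ZeroFree.ell T ≤ 6 * u := by
      rw [hT]
      unfold ZeroFree.ell
      rw [Real.log_le_iff_le_exp (by positivity), abs_of_pos (Real.exp_pos u),
        show 6 * u = u + 5 * u by ring, Real.exp_add]
      have h5 : (101 : ℝ) ≤ Real.exp (5 * u) :=
        calc (101 : ℝ) ≤ (2.7 : ℝ) ^ 5 := by norm_num
          _ ≤ Real.exp 1 ^ 5 :=
            pow_le_pow_left₀ (by norm_num) (by linarith [Real.exp_one_gt_d9]) 5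
          _ = Real.exp ((5 : ℕ) * 1) := (Real.exp_nat_mul 1 5).symm
          _ ≤ _ := Real.exp_le_exp.2 (by norm_num; linarith)
      nlinarith [Real.one_le_exp (show 0 ≤ u by linarith)]
    rw [hM, lg]
    linarith
  obtain ⟨w, hw⟩ : ∃ w, w = a * (q : ℝ) ^ (-ε) / lg q T ^ 12 := ⟨_, rfl⟩
  have hqn : (q : ℝ) ^ (-ε) ≤ 1 := Real.rpow_le_one_of_one_le_of_nonpos hq1 (by linarith)
  have hqn0 : 0 < (q : ℝ) ^ (-ε) := Real.rpow_pos_of_pos (by linarith) _
  have hLT0 := SiegelWalfisz.lg_pos q T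
  have hw0 : 0 < w := by rw [hw]; positivity
  have hw2 : w ≤ 1 / 2 := by
    rw [hw, div_le_iff₀ (by positivity)]
    refine (mul_le_one₀ ha1 hqn0.le hqn).trans ?_
    have h := (SiegelWalfisz.four_le_lg q T).trans
      (le_self_pow₀ (by linarith [SiegelWalfisz.four_le_lg q T]) (show (12 : ℕ) ≠ 0 by norm_num))
    linarith
  have hq2 : (q : ℝ) ^ 2 ≤ u ^ (30 * B) := by
    refine (pow_le_pow_left₀ (Nat.cast_nonneg q) hq 2).trans (le_of_eq ?_)
    rw [← pow_mul, ← pow_mul]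
    ring_nf
  have hS := hsmooth (fun n => χ n * (μ n : ℂ)) (charInv χ) x T (1 - w)
    (B₀ * M ^ 12 * K₁ * u ^ (30 * B + 12)) hx hT1 (by linarith) (by linarith) (by positivity)
    (fun σ hσ => LSeriesSummable_mul χ (ArithmeticFunction.LSeriesSummable_moebius_iff.2
      (by simpa using hσ))) (fun s hs => lseries_char_moebius hs) fun σ y hy h2 => ?_
  · have e1 : x ^ ((1 - w) - 1) ≤ Real.exp (-(c * u)) := by
      rw [show (1 - w) - 1 = -w by ring, Real.rpow_def_of_pos (by linarith), ← hu15]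
      refine Real.exp_le_exp.2 ?_
      have h1 : a / (2 * M ^ 12 * u ^ 13) ≤ w := by
        rw [hw, Real.rpow_neg (by linarith)]
        calc a / (2 * M ^ 12 * u ^ 13) = a * (2 * u)⁻¹ / (M * u) ^ 12 := by field_simp
          _ ≤ _ := by gcongr
      have h2 : c * u ≤ u ^ 15 * w := by
        refine le_trans ?_ (mul_le_mul_of_nonneg_left h1 (by positivity))
        calc c * u ≤ a / (2 * M ^ 12) * u ^ 2 := by
              refine mul_le_mul (hc ▸ min_le_left _ _) (le_self_pow₀ hu1 two_ne_zero) (by linarith)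
                (by positivity)
          _ = _ := by field_simp
      linarith
    have e2 : T ^ (-(1 / 2) : ℝ) ≤ Real.exp (-(c * u)) := by
      rw [hT, ← Real.exp_mul]
      refine Real.exp_le_exp.2 ?_
      have := mul_le_mul_of_nonneg_right (hc ▸ min_le_right (a / (2 * M ^ 12)) (1 / 2) : c ≤ 1 / 2)
        (show 0 ≤ u by linarith)
      linarith
    refine hS.trans ((mul_le_mul_of_nonneg_left (add_le_add e1 e2) (by positivity)).trans ?_)
    have h3 := habs u hu1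
    rw [Real.rpow_natCast] at h3
    rw [le_div_iff₀ (by positivity)]
    refine le_trans (le_of_eq ?_) (mul_le_mul_of_nonneg_left h3
      (show 0 ≤ K₂ * (B₀ * M ^ 12 * K₁) * x * 2 by positivity)) |>.trans (le_of_eq ?_)
    · rw [← pow_mul, pow_add u (30 * B + 12) (15 * A)]
      ring
    · ring
  · have him : ((σ : ℂ) + y * I).im = y := by simp
    have hre : ((σ : ℂ) + y * I).re = σ := by simp
    have hs : 1 - a * (q : ℝ) ^ (-ε) / lg q y ^ 12 ≤ σ := by
      rcases hy with ⟨hy1, hy2⟩ | hy1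
      · refine le_trans (sub_le_sub_left ?_ 1) hy2
        rw [hw]
        exact div_le_div_of_nonneg_left (by positivity) (pow_pos (SiegelWalfisz.lg_pos q y) 12)
          (pow_le_pow_left₀ (SiegelWalfisz.lg_pos q y).le
            (SiegelWalfisz.lg_mono (hy1.trans (le_abs_self T))) 12)
      · have : 0 ≤ a * (q : ℝ) ^ (-ε) / lg q y ^ 12 :=
          div_nonneg (by positivity) (pow_nonneg (SiegelWalfisz.lg_pos q y).le 12)
        linarith
    obtain ⟨hd, hn⟩ := hreg q χ _ (by rw [him, hre]; exact hs) (by rw [hre]; exact h2)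
    rw [him] at hn
    refine ⟨hd, hn.trans ?_⟩
    refine (mul_le_mul (mul_le_mul_of_nonneg_left hq2 hB₀) (hgrow y)
      (pow_nonneg (SiegelWalfisz.lg_pos q y).le 12) (by positivity)).trans (le_of_eq ?_)
    rw [pow_add]
    ring

end FA.DavenportMoebius
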